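import Mathlib

/-!
# S14 / [RCG] : the ray class group modulo an ideal `m` of a Dedekind domain

`R` a Dedekind domain, `m : Ideal R`.  We build

* `rc_coprimeSubmonoid m` : the submonoid of ideals coprime to `m`;
* `rc_rayCon m` : the ray congruence `a ∼ b ↔ ∃ g₁ g₂ ≠ 0, gᵢ ≡ 1 mod m, (g₁) a = (g₂) b`;
* `rc_RayClassGroup m` : the quotient, a commutative group when `m ≠ ⊤`, finite when
  moreover `ClassGroup R` and `R ⧸ m` are finite;
* `rc_normSubgroup m Nm`, `rc_RayClassGroupMod m Nm` : quotient by the classes of a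
  submonoid `Nm` of ideals;
* `rc_exists_quotient` : the package used by the crossing argument.
-/

namespace Fermat.Agent.S14

open Ideal
open scoped nonZeroDivisors

universe u

set_option linter.unusedSectionVars false

variable {R : Type u} [CommRing R] [IsDedekindDomain R]

/-- The submonoid of ideals coprime to `m`. -/
def rc_coprimeSubmonoid (m : Ideal R) : Submonoid (Ideal R) where
  carrier := {a | IsCoprime a m}
  one_mem' := isCoprime_one_left
  mul_mem' := fun ha hb => IsCoprime.mul_left ha hb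

theorem rc_mem_coprimeSubmonoid {m a : Ideal R} :
    a ∈ rc_coprimeSubmonoid m ↔ IsCoprime a m := Iff.rfl

theorem rc_mem_coprimeSubmonoid_iff_sup {m a : Ideal R} :
    a ∈ rc_coprimeSubmonoid m ↔ a ⊔ m = ⊤ :=
  rc_mem_coprimeSubmonoid.trans Ideal.isCoprime_iff_sup_eq

theorem rc_sub_one_mul_mem {m : Ideal R} {g h : R} (hg : g - 1 ∈ m) (hh : h - 1 ∈ m) :
    g * h - 1 ∈ m := by
  have : g * h - 1 = g * (h - 1) + (g - 1) := by ring
  rw [this]
  exact m.add_mem (m.mul_mem_left _ hh) hg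

theorem rc_ne_zero_of_sub_one_mem {m : Ideal R} (hm : m ≠ ⊤) {g : R} (hg : g - 1 ∈ m) :
    g ≠ 0 := by
  rintro rfl
  apply hm
  rw [Ideal.eq_top_iff_one]
  simpa using m.neg_mem hg

/-- The relation underlying the ray congruence. -/
def rc_RayEquiv (m : Ideal R) (a b : Ideal R) : Prop :=
  ∃ g₁ g₂ : R, g₁ ≠ 0 ∧ g₂ ≠ 0 ∧ g₁ - 1 ∈ m ∧ g₂ - 1 ∈ m ∧ span {g₁} * a = span {g₂} * b

theorem rc_RayEquiv.refl (m a : Ideal R) : rc_RayEquiv m a a :=
  ⟨1, 1, one_ne_zero, one_ne_zero, by simp, by simp, rfl⟩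

theorem rc_RayEquiv.symm {m a b : Ideal R} (h : rc_RayEquiv m a b) : rc_RayEquiv m b a := by
  obtain ⟨g₁, g₂, h1, h2, h3, h4, h⟩ := h
  exact ⟨g₂, g₁, h2, h1, h4, h3, h.symm⟩

theorem rc_RayEquiv.trans {m a b c : Ideal R} (hab : rc_RayEquiv m a b)
    (hbc : rc_RayEquiv m b c) : rc_RayEquiv m a c := by
  obtain ⟨g₁, g₂, h1, h2, h3, h4, h⟩ := hab
  obtain ⟨k₁, k₂, k1, k2, k3, k4, k⟩ := hbc
  refine ⟨g₁ * k₁, g₂ * k₂, mul_ne_zero h1 k1, mul_ne_zero h2 k2, rc_sub_one_mul_mem h3 k3,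
    rc_sub_one_mul_mem h4 k4, ?_⟩
  rw [← Ideal.span_singleton_mul_span_singleton, ← Ideal.span_singleton_mul_span_singleton]
  calc span {g₁} * span {k₁} * a = span {k₁} * (span {g₁} * a) := by ring
    _ = span {k₁} * (span {g₂} * b) := by rw [h]
    _ = span {g₂} * (span {k₁} * b) := by ring
    _ = span {g₂} * (span {k₂} * c) := by rw [k]
    _ = span {g₂} * span {k₂} * c := by ring

theorem rc_RayEquiv.mul {m a b c d : Ideal R} (hab : rc_RayEquiv m a b)
    (hcd : rc_RayEquiv m c d) : rc_RayEquiv m (a * c) (b * d) := by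
  obtain ⟨g₁, g₂, h1, h2, h3, h4, h⟩ := hab
  obtain ⟨k₁, k₂, k1, k2, k3, k4, k⟩ := hcd
  refine ⟨g₁ * k₁, g₂ * k₂, mul_ne_zero h1 k1, mul_ne_zero h2 k2, rc_sub_one_mul_mem h3 k3,
    rc_sub_one_mul_mem h4 k4, ?_⟩
  rw [← Ideal.span_singleton_mul_span_singleton, ← Ideal.span_singleton_mul_span_singleton]
  calc span {g₁} * span {k₁} * (a * c) = (span {g₁} * a) * (span {k₁} * c) := by ring
    _ = (span {g₂} * b) * (span {k₂} * d) := by rw [h, k]
    _ = span {g₂} * span {k₂} * (b * d) := by ring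

/-- The ray congruence modulo `m` on the monoid of ideals coprime to `m`. -/
def rc_rayCon (m : Ideal R) : Con (rc_coprimeSubmonoid m) where
  r a b := rc_RayEquiv m (a : Ideal R) (b : Ideal R)
  iseqv :=
    { refl := fun a => rc_RayEquiv.refl m a
      symm := fun h => h.symm
      trans := fun h h' => h.trans h' }
  mul' := fun h h' => by
    simpa using h.mul h'

theorem rc_rayCon_iff {m : Ideal R} {a b : rc_coprimeSubmonoid m} :
    rc_rayCon m a b ↔ rc_RayEquiv m (a : Ideal R) (b : Ideal R) := Iff.rfl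

/-- The ray class group modulo `m` (as a type; it is a commutative monoid for every `m` and a
commutative group as soon as `m ≠ ⊤`). -/
def rc_RayClassGroup (m : Ideal R) : Type u := (rc_rayCon m).Quotient

noncomputable instance rc_instCommMonoid (m : Ideal R) : CommMonoid (rc_RayClassGroup m) :=
  inferInstanceAs (CommMonoid (rc_rayCon m).Quotient)

/-- The class of an ideal coprime to `m`. -/
def rc_mk (m : Ideal R) : rc_coprimeSubmonoid m →* rc_RayClassGroup m := (rc_rayCon m).mk'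

theorem rc_mk_surjective (m : Ideal R) : Function.Surjective (rc_mk m) :=
  Con.mk'_surjective

theorem rc_mk_eq_mk_iff {m : Ideal R} {a b : rc_coprimeSubmonoid m} :
    rc_mk m a = rc_mk m b ↔ rc_RayEquiv m (a : Ideal R) (b : Ideal R) :=
  (Con.eq (rc_rayCon m)).trans Iff.rfl


/-! ### Inverses: the group structure for `m ≠ ⊤` -/

theorem rc_ne_bot_of_isCoprime {m a : Ideal R} (hm : m ≠ ⊤) (ha : IsCoprime a m) : a ≠ ⊥ := by
  rintro rfl
  apply hm
  have := Ideal.isCoprime_iff_sup_eq.mp ha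
  simpa using this

theorem rc_exists_mul_rayEquiv_top {m : Ideal R} (hm : m ≠ ⊤) {a : Ideal R}
    (ha : IsCoprime a m) : ∃ b : Ideal R, IsCoprime b m ∧ rc_RayEquiv m (a * b) ⊤ := by
  obtain ⟨α, hα, μ, hμ, hαμ⟩ := Ideal.isCoprime_iff_exists.mp ha
  have hα1 : α - 1 ∈ m := by
    have : α - 1 = -μ := by rw [← hαμ]; ring
    rw [this]; exact m.neg_mem hμ
  have hα0 : α ≠ 0 := rc_ne_zero_of_sub_one_mem hm hα1
  have hle : span {α} ≤ a := (Ideal.span_singleton_le_iff_mem _).mpr hα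
  obtain ⟨b, hb⟩ := Ideal.dvd_iff_le.mpr hle
  have hcop : IsCoprime (span {α}) m := by
    rw [Ideal.isCoprime_iff_exists]
    exact ⟨α, Ideal.mem_span_singleton_self α, μ, hμ, hαμ⟩
  refine ⟨b, ?_, 1, α, one_ne_zero, hα0, by simp, hα1, ?_⟩
  · rw [hb] at hcop
    exact hcop.of_mul_left_right
  · rw [← hb]; simp

theorem rc_isUnit {m : Ideal R} (hm : m ≠ ⊤) (x : rc_RayClassGroup m) : IsUnit x := by
  obtain ⟨a, rfl⟩ := rc_mk_surjective m x
  obtain ⟨b, hb, hab⟩ := rc_exists_mul_rayEquiv_top hm a.2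
  refine IsUnit.of_mul_eq_one (rc_mk m ⟨b, hb⟩) ?_
  rw [← map_mul, ← map_one (rc_mk m), rc_mk_eq_mk_iff]
  simpa using hab

/-- The group structure on the ray class group, for `m ≠ ⊤`. -/
noncomputable instance rc_instCommGroup (m : Ideal R) [hm : Fact (m ≠ ⊤)] :
    CommGroup (rc_RayClassGroup m) :=
  commGroupOfIsUnit (rc_isUnit hm.out)


/-! ### Finiteness -/

/-- Ideals coprime to `m ≠ ⊤` are nonzero. -/
def rc_toNonZeroDivisors (m : Ideal R) [hm : Fact (m ≠ ⊤)] :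
    rc_coprimeSubmonoid m →* (Ideal R)⁰ where
  toFun a := ⟨a.1, mem_nonZeroDivisors_of_ne_zero (rc_ne_bot_of_isCoprime hm.out a.2)⟩
  map_one' := rfl
  map_mul' := fun _ _ => rfl

/-- The canonical map from the ray class group to the class group. -/
noncomputable def rc_toClassGroup (m : Ideal R) [hm : Fact (m ≠ ⊤)] :
    rc_RayClassGroup m →* ClassGroup R :=
  (rc_rayCon m).lift (ClassGroup.mk0.comp (rc_toNonZeroDivisors m)) (by
    intro a b hab
    obtain ⟨g₁, g₂, h1, h2, -, -, h⟩ := hab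
    change ClassGroup.mk0 (rc_toNonZeroDivisors m a) = ClassGroup.mk0 (rc_toNonZeroDivisors m b)
    rw [ClassGroup.mk0_eq_mk0_iff]
    exact ⟨g₁, g₂, h1, h2, h⟩)

theorem rc_toClassGroup_mk (m : Ideal R) [hm : Fact (m ≠ ⊤)] (a : rc_coprimeSubmonoid m) :
    rc_toClassGroup m (rc_mk m a) = ClassGroup.mk0 (rc_toNonZeroDivisors m a) := rfl

theorem rc_rayEquiv_span_of_sub_mem {m : Ideal R} (hm : m ≠ ⊤) {α β : R}
    (hβ : IsCoprime (span {β}) m) (h : α - β ∈ m) :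
    rc_RayEquiv m (span {α}) (span {β}) := by
  obtain ⟨x, hx, μ, hμ, hxμ⟩ := Ideal.isCoprime_iff_exists.mp hβ
  obtain ⟨γ, rfl⟩ := Ideal.mem_span_singleton'.mp hx
  have h1 : γ * β - 1 ∈ m := by
    have : γ * β - 1 = -μ := by rw [← hxμ]; ring
    rw [this]; exact m.neg_mem hμ
  have h2 : γ * α - 1 ∈ m := by
    have : γ * α - 1 = γ * (α - β) + (γ * β - 1) := by ring
    rw [this]; exact m.add_mem (m.mul_mem_left _ h) h1
  refine ⟨γ * β, γ * α, rc_ne_zero_of_sub_one_mem hm h1, rc_ne_zero_of_sub_one_mem hm h2,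
    h1, h2, ?_⟩
  rw [Ideal.span_singleton_mul_span_singleton, Ideal.span_singleton_mul_span_singleton]
  congr 2
  ring

theorem rc_exists_generator_of_mem_ker (m : Ideal R) [hm : Fact (m ≠ ⊤)]
    (x : rc_RayClassGroup m) (hx : rc_toClassGroup m x = 1) :
    ∃ α : R, ∃ h : IsCoprime (span {α}) m, rc_mk m ⟨span {α}, h⟩ = x := by
  obtain ⟨a, rfl⟩ := rc_mk_surjective m x
  rw [rc_toClassGroup_mk] at hx
  have hprin : (a : Ideal R).IsPrincipal := (ClassGroup.mk0_eq_one_iff _).mp hx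
  obtain ⟨α, hα⟩ := hprin.principal
  have hα' : (a : Ideal R) = span {α} := hα
  refine ⟨α, hα' ▸ a.2, ?_⟩
  congr 1
  exact Subtype.ext hα'.symm

theorem rc_finite_ker (m : Ideal R) [hm : Fact (m ≠ ⊤)] [Finite (R ⧸ m)] :
    Finite (rc_toClassGroup m).ker := by
  classical
  have key : ∀ x : (rc_toClassGroup m).ker,
      ∃ α : R, ∃ h : IsCoprime (span {α}) m, rc_mk m ⟨span {α}, h⟩ = x.1 :=
    fun x => rc_exists_generator_of_mem_ker m x.1 (MonoidHom.mem_ker.mp x.2)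
  choose α hα hαx using key
  refine Finite.of_injective (fun x => Ideal.Quotient.mk m (α x)) ?_
  intro x y hxy
  have hsub : α x - α y ∈ m := by
    rw [← Ideal.Quotient.eq]; exact hxy
  apply Subtype.ext
  rw [← hαx x, ← hαx y, rc_mk_eq_mk_iff]
  exact rc_rayEquiv_span_of_sub_mem hm.out (hα y) hsub

instance rc_instFinite (m : Ideal R) [hm : Fact (m ≠ ⊤)] [Finite (R ⧸ m)]
    [Finite (ClassGroup R)] : Finite (rc_RayClassGroup m) := by
  have := rc_finite_ker m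
  have : Finite (rc_RayClassGroup m ⧸ (rc_toClassGroup m).ker) :=
    Finite.of_injective _ (QuotientGroup.kerLift_injective (rc_toClassGroup m))
  exact Finite.of_subgroup_quotient (rc_toClassGroup m).ker


/-! ### Quotient by the classes of a submonoid of ideals -/

/-- The subgroup of the ray class group consisting of the classes `[n₂] / [n₁]` with
`n₁ n₂ ∈ Nm` (the subgroup generated by the classes of the submonoid `Nm`). -/
def rc_normSubgroup (m : Ideal R) [hm : Fact (m ≠ ⊤)] (Nm : Submonoid (Ideal R)) :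
    Subgroup (rc_RayClassGroup m) where
  carrier := {x | ∃ n₁ n₂ : rc_coprimeSubmonoid m, n₁.1 ∈ Nm ∧ n₂.1 ∈ Nm ∧
    x * rc_mk m n₁ = rc_mk m n₂}
  one_mem' := ⟨1, 1, Nm.one_mem, Nm.one_mem, by simp⟩
  mul_mem' := by
    rintro x y ⟨n₁, n₂, h1, h2, h⟩ ⟨k₁, k₂, k1, k2, k⟩
    refine ⟨n₁ * k₁, n₂ * k₂, Nm.mul_mem h1 k1, Nm.mul_mem h2 k2, ?_⟩
    rw [map_mul, map_mul, ← h, ← k]
    exact mul_mul_mul_comm _ _ _ _
  inv_mem' := by
    rintro x ⟨n₁, n₂, h1, h2, h⟩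
    refine ⟨n₂, n₁, h2, h1, ?_⟩
    rw [← h, inv_mul_cancel_left]

theorem rc_mem_normSubgroup {m : Ideal R} [hm : Fact (m ≠ ⊤)] {Nm : Submonoid (Ideal R)}
    {x : rc_RayClassGroup m} :
    x ∈ rc_normSubgroup m Nm ↔ ∃ n₁ n₂ : rc_coprimeSubmonoid m, n₁.1 ∈ Nm ∧ n₂.1 ∈ Nm ∧
      x * rc_mk m n₁ = rc_mk m n₂ := Iff.rfl

/-- The ray class group modulo `m`, modulo the classes of the ideals in `Nm`. -/
def rc_RayClassGroupMod (m : Ideal R) [hm : Fact (m ≠ ⊤)] (Nm : Submonoid (Ideal R)) : Type u :=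
  rc_RayClassGroup m ⧸ rc_normSubgroup m Nm

noncomputable instance rc_instCommGroupMod (m : Ideal R) [hm : Fact (m ≠ ⊤)]
    (Nm : Submonoid (Ideal R)) : CommGroup (rc_RayClassGroupMod m Nm) :=
  inferInstanceAs (CommGroup (rc_RayClassGroup m ⧸ rc_normSubgroup m Nm))

instance rc_instFiniteMod (m : Ideal R) [hm : Fact (m ≠ ⊤)] [Finite (R ⧸ m)]
    [Finite (ClassGroup R)] (Nm : Submonoid (Ideal R)) : Finite (rc_RayClassGroupMod m Nm) :=
  inferInstanceAs (Finite (rc_RayClassGroup m ⧸ rc_normSubgroup m Nm))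

/-- The projection from the ray class group. -/
noncomputable def rc_mkMod (m : Ideal R) [hm : Fact (m ≠ ⊤)] (Nm : Submonoid (Ideal R)) :
    rc_RayClassGroup m →* rc_RayClassGroupMod m Nm :=
  QuotientGroup.mk' (rc_normSubgroup m Nm)

theorem rc_mkMod_surjective (m : Ideal R) [hm : Fact (m ≠ ⊤)] (Nm : Submonoid (Ideal R)) :
    Function.Surjective (rc_mkMod m Nm) :=
  QuotientGroup.mk'_surjective _

theorem rc_mkMod_eq_iff {m : Ideal R} [hm : Fact (m ≠ ⊤)] {Nm : Submonoid (Ideal R)}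
    {x y : rc_RayClassGroup m} :
    rc_mkMod m Nm x = rc_mkMod m Nm y ↔ x⁻¹ * y ∈ rc_normSubgroup m Nm :=
  QuotientGroup.eq

open Classical in
/-- The class of an ideal in `rc_RayClassGroupMod m Nm` (junk value `1` for ideals not coprime
to `m`). -/
noncomputable def rc_class (m : Ideal R) [hm : Fact (m ≠ ⊤)] (Nm : Submonoid (Ideal R))
    (a : Ideal R) : rc_RayClassGroupMod m Nm :=
  if h : IsCoprime a m then rc_mkMod m Nm (rc_mk m ⟨a, h⟩) else 1

theorem rc_class_of_isCoprime {m : Ideal R} [hm : Fact (m ≠ ⊤)] {Nm : Submonoid (Ideal R)}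
    {a : Ideal R} (h : IsCoprime a m) :
    rc_class m Nm a = rc_mkMod m Nm (rc_mk m ⟨a, h⟩) := by
  rw [rc_class, dif_pos h]

theorem rc_class_mul {m : Ideal R} [hm : Fact (m ≠ ⊤)] {Nm : Submonoid (Ideal R)}
    {a b : Ideal R} (ha : IsCoprime a m) (hb : IsCoprime b m) :
    rc_class m Nm (a * b) = rc_class m Nm a * rc_class m Nm b := by
  rw [rc_class_of_isCoprime ha, rc_class_of_isCoprime hb,
    rc_class_of_isCoprime (IsCoprime.mul_left ha hb), ← map_mul, ← map_mul]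
  rfl

theorem rc_class_top {m : Ideal R} [hm : Fact (m ≠ ⊤)] {Nm : Submonoid (Ideal R)} :
    rc_class m Nm ⊤ = 1 := by
  have h : IsCoprime (⊤ : Ideal R) m := by
    rw [← Ideal.one_eq_top]; exact isCoprime_one_left
  rw [rc_class_of_isCoprime h]
  have : (⟨⊤, h⟩ : rc_coprimeSubmonoid m) = 1 := Subtype.ext Ideal.one_eq_top.symm
  rw [this, map_one, map_one]

theorem rc_class_surjective {m : Ideal R} [hm : Fact (m ≠ ⊤)] {Nm : Submonoid (Ideal R)}
    (x : rc_RayClassGroupMod m Nm) : ∃ a : Ideal R, IsCoprime a m ∧ rc_class m Nm a = x := by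
  obtain ⟨y, rfl⟩ := rc_mkMod_surjective m Nm x
  obtain ⟨a, rfl⟩ := rc_mk_surjective m y
  exact ⟨a.1, a.2, rc_class_of_isCoprime a.2⟩

theorem rc_isCoprime_span_singleton {m : Ideal R} {γ : R} (hγ : γ - 1 ∈ m) :
    IsCoprime (span {γ}) m := by
  rw [Ideal.isCoprime_iff_exists]
  exact ⟨γ, Ideal.mem_span_singleton_self γ, -(γ - 1), m.neg_mem hγ, by ring⟩

theorem rc_mk_span_singleton {m : Ideal R} [hm : Fact (m ≠ ⊤)] {γ : R} (hγ : γ - 1 ∈ m) :
    rc_mk m ⟨span {γ}, rc_isCoprime_span_singleton hγ⟩ = 1 := by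
  rw [← map_one (rc_mk m), rc_mk_eq_mk_iff]
  exact ⟨1, γ, one_ne_zero, rc_ne_zero_of_sub_one_mem hm.out hγ, by simp, hγ, by simp⟩

theorem rc_class_span_singleton {m : Ideal R} [hm : Fact (m ≠ ⊤)] {Nm : Submonoid (Ideal R)}
    {γ : R} (hγ : γ - 1 ∈ m) : rc_class m Nm (span {γ}) = 1 := by
  rw [rc_class_of_isCoprime (rc_isCoprime_span_singleton hγ), rc_mk_span_singleton hγ, map_one]

theorem rc_class_eq_one_of_mem {m : Ideal R} [hm : Fact (m ≠ ⊤)] {Nm : Submonoid (Ideal R)}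
    {n : Ideal R} (hn : n ∈ Nm) (hcop : IsCoprime n m) : rc_class m Nm n = 1 := by
  rw [rc_class_of_isCoprime hcop, ← map_one (rc_mkMod m Nm), rc_mkMod_eq_iff, mul_one,
    rc_mem_normSubgroup]
  exact ⟨⟨n, hcop⟩, 1, hn, Nm.one_mem, by rw [inv_mul_cancel, map_one]⟩

/-- Equality of classes, spelled out on ideals. -/
theorem rc_class_eq_iff {m : Ideal R} [hm : Fact (m ≠ ⊤)] {Nm : Submonoid (Ideal R)}
    (hNm : ∀ n ∈ Nm, IsCoprime n m) {a b : Ideal R} (ha : IsCoprime a m) (hb : IsCoprime b m) :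
    rc_class m Nm a = rc_class m Nm b ↔
      ∃ g₁ g₂ : R, g₁ ≠ 0 ∧ g₂ ≠ 0 ∧ g₁ - 1 ∈ m ∧ g₂ - 1 ∈ m ∧
        ∃ n₁ ∈ Nm, ∃ n₂ ∈ Nm, span {g₁} * a * n₁ = span {g₂} * b * n₂ := by
  rw [rc_class_of_isCoprime ha, rc_class_of_isCoprime hb, rc_mkMod_eq_iff, rc_mem_normSubgroup]
  constructor
  · rintro ⟨n₂, n₁, h2, h1, h⟩
    rw [mul_assoc, inv_mul_eq_iff_eq_mul, ← map_mul, ← map_mul, rc_mk_eq_mk_iff] at h
    obtain ⟨g₂, g₁, k2, k1, l2, l1, e⟩ := h
    refine ⟨g₁, g₂, k1, k2, l1, l2, n₁.1, h1, n₂.1, h2, ?_⟩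
    rw [mul_assoc, mul_assoc]
    exact e.symm
  · rintro ⟨g₁, g₂, k1, k2, l1, l2, n₁, h1, n₂, h2, e⟩
    refine ⟨⟨n₂, hNm n₂ h2⟩, ⟨n₁, hNm n₁ h1⟩, h2, h1, ?_⟩
    rw [mul_assoc, inv_mul_eq_iff_eq_mul, ← map_mul, ← map_mul, rc_mk_eq_mk_iff]
    refine ⟨g₂, g₁, k2, k1, l2, l1, ?_⟩
    rw [mul_assoc, mul_assoc] at e
    exact e.symm

/-- **The ray class package** used by the crossing argument: a finite abelian group `Q` with a
class map `c` on ideals, multiplicative and surjective on ideals coprime to `m`, killing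
the ray `{(γ) : γ ≡ 1 mod m}` and the submonoid `Nm`, and such that equality of classes is
witnessed by elements of the ray and of `Nm`. -/
theorem rc_exists_quotient (m : Ideal R) (hm : m ≠ ⊤) [Finite (R ⧸ m)] [Finite (ClassGroup R)]
    (Nm : Submonoid (Ideal R)) (hNm : ∀ n ∈ Nm, IsCoprime n m) :
    ∃ (Q : Type u) (_ : CommGroup Q) (_ : Finite Q) (c : Ideal R → Q),
      (∀ a b, IsCoprime a m → IsCoprime b m → c (a * b) = c a * c b) ∧ c ⊤ = 1 ∧
      (∀ x : Q, ∃ a, IsCoprime a m ∧ c a = x) ∧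
      (∀ γ : R, γ - 1 ∈ m → c (span {γ}) = 1) ∧
      (∀ n ∈ Nm, c n = 1) ∧
      (∀ a b, IsCoprime a m → IsCoprime b m → c a = c b →
        ∃ g₁ g₂ : R, g₁ ≠ 0 ∧ g₂ ≠ 0 ∧ g₁ - 1 ∈ m ∧ g₂ - 1 ∈ m ∧
          ∃ n₁ ∈ Nm, ∃ n₂ ∈ Nm, span {g₁} * a * n₁ = span {g₂} * b * n₂) := by
  have : Fact (m ≠ ⊤) := ⟨hm⟩
  refine ⟨rc_RayClassGroupMod m Nm, inferInstance, inferInstance, rc_class m Nm,
    fun a b ha hb => rc_class_mul ha hb, rc_class_top, rc_class_surjective,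
    fun γ hγ => rc_class_span_singleton hγ, fun n hn => rc_class_eq_one_of_mem hn (hNm n hn),
    fun a b ha hb h => (rc_class_eq_iff hNm ha hb).mp h⟩


/-- The ray class package for the ring of integers of a number field: all finiteness hypotheses
are automatic for a modulus `m ≠ ⊥`. -/
theorem rc_exists_quotient_numberField (E : Type u) [Field E] [NumberField E]
    (m : Ideal (NumberField.RingOfIntegers E)) (hm : m ≠ ⊤) (hm0 : m ≠ ⊥)
    (Nm : Submonoid (Ideal (NumberField.RingOfIntegers E))) (hNm : ∀ n ∈ Nm, IsCoprime n m) :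
    ∃ (Q : Type u) (_ : CommGroup Q) (_ : Finite Q)
      (c : Ideal (NumberField.RingOfIntegers E) → Q),
      (∀ a b, IsCoprime a m → IsCoprime b m → c (a * b) = c a * c b) ∧ c ⊤ = 1 ∧
      (∀ x : Q, ∃ a, IsCoprime a m ∧ c a = x) ∧
      (∀ γ : NumberField.RingOfIntegers E, γ - 1 ∈ m → c (span {γ}) = 1) ∧
      (∀ n ∈ Nm, c n = 1) ∧
      (∀ a b, IsCoprime a m → IsCoprime b m → c a = c b →
        ∃ g₁ g₂ : NumberField.RingOfIntegers E, g₁ ≠ 0 ∧ g₂ ≠ 0 ∧ g₁ - 1 ∈ m ∧ g₂ - 1 ∈ m ∧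
          ∃ n₁ ∈ Nm, ∃ n₂ ∈ Nm, span {g₁} * a * n₁ = span {g₂} * b * n₂) := by
  have : Finite (NumberField.RingOfIntegers E ⧸ m) := Ideal.finiteQuotientOfFreeOfNeBot m hm0
  exact rc_exists_quotient m hm Nm hNm

end Fermat.Agent.S14
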