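import Mathlib
import Fermat.Agent.S14.Artin.Cyclotomic

/-!
# S14, crossing block: ideals prime to a rational prime `r`, and norms mod `r`
-/

open NumberField

namespace Fermat.Agent.S14

set_option linter.style.haveILetI false
set_option linter.unusedSectionVars false

section cxCoprime

variable {E : Type*} [Field E] [NumberField E] {r : ℕ}

/-- An ideal whose norm is prime to `r` is coprime to `(r)`. -/
theorem cx_isCoprime_of_coprime_absNorm {a : Ideal (𝓞 E)} (h : (Ideal.absNorm a).Coprime r) :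
    IsCoprime a (Ideal.span {(r : 𝓞 E)}) := by
  rw [Ideal.isCoprime_iff_sup_eq, Ideal.eq_top_iff_one]
  have hco : IsCoprime (Ideal.absNorm a : ℤ) (r : ℤ) := Nat.isCoprime_iff_coprime.mpr h
  obtain ⟨u, v, huv⟩ := hco
  have h1 : ((Ideal.absNorm a : ℕ) : 𝓞 E) ∈ a := Ideal.absNorm_mem a
  have h2 : ((1 : ℤ) : 𝓞 E) ∈ a ⊔ Ideal.span {(r : 𝓞 E)} := by
    rw [← huv]
    push_cast
    exact Ideal.add_mem _ (Ideal.mem_sup_left (a.mul_mem_left _ h1))
      (Ideal.mem_sup_right (Ideal.mul_mem_left _ _ (Ideal.mem_span_singleton_self _)))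
  simpa using h2

/-- `r` does not lie in a proper ideal whose norm is prime to `r`. -/
theorem cx_natCast_notMem_of_coprime_absNorm {a : Ideal (𝓞 E)} (ha : a ≠ ⊤)
    (h : (Ideal.absNorm a).Coprime r) : (r : 𝓞 E) ∉ a := by
  intro hr
  apply ha
  have h1 := cx_isCoprime_of_coprime_absNorm h
  rw [Ideal.isCoprime_iff_sup_eq] at h1
  rw [← h1, eq_comm, sup_eq_left, Ideal.span_singleton_le_iff_mem]
  exact hr

/-- `(r)` is a proper ideal of `𝓞 E` for `r ≠ 1`. -/
theorem cx_span_natCast_ne_top (hr : r ≠ 1) : Ideal.span {(r : 𝓞 E)} ≠ ⊤ := by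
  intro h
  have h1 := congrArg Ideal.absNorm h
  rw [Ideal.absNorm_top, Ideal.absNorm_span_singleton] at h1
  have h2 : Algebra.norm ℤ (r : 𝓞 E) = (r : ℤ) ^ Module.finrank ℤ (𝓞 E) := by
    have := Algebra.norm_algebraMap (R := ℤ) (S := 𝓞 E) (r : ℤ)
    simpa using this
  rw [h2, Int.natAbs_pow, Int.natAbs_natCast] at h1
  have hpos : 0 < Module.finrank ℤ (𝓞 E) := Module.finrank_pos
  rcases Nat.pow_eq_one.mp h1 with h3 | h3
  · exact hr h3
  · omega

theorem cx_span_natCast_ne_bot (hr : r ≠ 0) : Ideal.span {(r : 𝓞 E)} ≠ ⊥ := by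
  rw [Ne, Ideal.span_singleton_eq_bot]
  exact_mod_cast hr

/-- An ideal coprime to `(r)`, `r` prime, has norm prime to `r`. -/
theorem cx_coprime_absNorm_of_isCoprime [hr : Fact r.Prime] {a : Ideal (𝓞 E)}
    (h : IsCoprime a (Ideal.span {(r : 𝓞 E)})) : (Ideal.absNorm a).Coprime r := by
  rw [Nat.coprime_comm, Nat.Prime.coprime_iff_not_dvd hr.out]
  intro hdvd
  rw [Ideal.isCoprime_iff_sup_eq] at h
  have ha0 : a ≠ ⊥ := by
    rintro rfl
    rw [bot_sup_eq] at h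
    exact cx_span_natCast_ne_top hr.out.one_lt.ne' h
  haveI : Finite (𝓞 E ⧸ a) := Ideal.finiteQuotientOfFreeOfNeBot a ha0
  haveI : Fintype (𝓞 E ⧸ a) := Fintype.ofFinite _
  have hcard : r ∣ Fintype.card (𝓞 E ⧸ a) := by
    rw [← Nat.card_eq_fintype_card, ← Submodule.cardQuot_apply, ← Ideal.absNorm_apply]
    exact hdvd
  obtain ⟨x, hx⟩ := exists_prime_addOrderOf_dvd_card r hcard
  have hx0 : x ≠ 0 := by
    intro h0
    rw [h0, addOrderOf_zero] at hx
    exact hr.out.one_lt.ne' hx.symm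
  have hrx : (r : ℕ) • x = 0 := by rw [← hx]; exact addOrderOf_nsmul_eq_zero x
  obtain ⟨x', rfl⟩ := Ideal.Quotient.mk_surjective x
  have h1 : (1 : 𝓞 E) ∈ a ⊔ Ideal.span {(r : 𝓞 E)} := by rw [h]; trivial
  obtain ⟨α, hα, β, hβ, hαβ⟩ := Submodule.mem_sup.mp h1
  obtain ⟨s, rfl⟩ := Ideal.mem_span_singleton'.mp hβ
  apply hx0
  have h2 : Ideal.Quotient.mk a x' = Ideal.Quotient.mk a ((α + s * (r : 𝓞 E)) * x') := by
    rw [hαβ, one_mul]
  rw [h2, add_mul, map_add, Ideal.Quotient.eq_zero_iff_mem.mpr (a.mul_mem_right _ hα), zero_add,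
    mul_assoc, map_mul]
  have h3 : Ideal.Quotient.mk a ((r : 𝓞 E) * x') = 0 := by
    rw [← hrx, nsmul_eq_mul, map_mul, map_natCast]
  rw [h3, mul_zero]

variable {p : ℕ}

/-- The norm of a nonzero principal ideal `(γ)` with `γ ≡ 1 mod r` is `± 1 mod r`, hence a
`p`-th power for odd `p`. -/
theorem cx_absNorm_span_ray (hp : Odd p) {γ : 𝓞 E} (hγ : γ - 1 ∈ Ideal.span {(r : 𝓞 E)}) :
    ∃ y : (ZMod r)ˣ, (Ideal.absNorm (Ideal.span {γ}) : ZMod r) = (y : ZMod r) ^ p := by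
  rw [Ideal.absNorm_span_singleton]
  have h1 := am_norm_int_modEq_one hγ
  have h2 : ((Algebra.norm ℤ γ : ℤ) : ZMod r) = 1 := by
    have := (ZMod.intCast_eq_intCast_iff _ _ r).mpr h1
    simpa using this
  rcases Int.natAbs_eq (Algebra.norm ℤ γ) with h3 | h3
  · refine ⟨1, ?_⟩
    have : ((Algebra.norm ℤ γ).natAbs : ZMod r) = ((Algebra.norm ℤ γ : ℤ) : ZMod r) := by
      conv_rhs => rw [h3]
      simp
    rw [this, h2]; simp
  · refine ⟨-1, ?_⟩
    have : ((Algebra.norm ℤ γ).natAbs : ZMod r) = -((Algebra.norm ℤ γ : ℤ) : ZMod r) := by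
      conv_rhs => rw [h3]
      simp
    rw [this, h2, Units.val_neg, Units.val_one, hp.neg_one_pow]

end cxCoprime
end Fermat.Agent.S14
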