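import Mathlib

/-!
# S14, crossing block: the field `Ω = K(ζ_r)` and its subfields `E ⊆ L`

`K/F` is a Galois extension of number fields, `r` a prime.  `Ω := CyclotomicField r K = K(ζ_r)`
is Galois over `F`, and `Gal(Ω/F)` embeds into `Gal(K/F) × (ℤ/r)ˣ` via restriction and the
cyclotomic character.  For `g ∈ Gal(K/F)`, `n ∈ (ℤ/r)ˣ` and a prime `p` we let
`κ : Gal(Ω/F) → Gal(K/F) × (ℤ/r)ˣ/p-th powers`, `U := κ⁻¹⟨(g,[n])⟩`, `U₀ := ker κ`,
`E := Ω^U`, `L := Ω^{U₀}`.  Then `F ⊆ E ⊆ L`, `K ⊆ L`, `L/E` is Galois of degree `≤ p`.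
-/

open NumberField IntermediateField

namespace Fermat.Agent.S14

set_option linter.style.haveILetI false
set_option linter.unusedSectionVars false
set_option warn.classDefReducibility false

section cxOmega

variable (F K : Type*) [Field F] [NumberField F] [Field K] [NumberField K] [Algebra F K]
  [IsGalois F K] (r : ℕ) [NeZero r]

/-- `Ω = K(ζ_r)` is Galois over `F` when `K/F` is. -/
theorem cx_isGalois_omega' : IsGalois F (CyclotomicField r K) := by
  set Ω := CyclotomicField r K with hΩ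
  have hζ : IsPrimitiveRoot (IsCyclotomicExtension.zeta r K Ω) r :=
    IsCyclotomicExtension.zeta_spec r K Ω
  set ζ := IsCyclotomicExtension.zeta r K Ω with hζdef
  let f : K →ₐ[F] Ω := IsScalarTower.toAlgHom F K Ω
  let K' : IntermediateField F Ω := f.fieldRange
  let C : IntermediateField F Ω := IntermediateField.adjoin F {ζ}
  haveI : Normal F K' := Normal.of_algEquiv (AlgEquiv.ofInjectiveField f)
  haveI : IsCyclotomicExtension {r} F C := hζ.intermediateField_adjoin_isCyclotomicExtension F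
  haveI : IsGalois F C := IsCyclotomicExtension.isGalois {r} F C
  haveI : Normal F C := inferInstance
  have htop : K' ⊔ C = ⊤ := by
    have key : ∀ x ∈ Algebra.adjoin K ({ζ} : Set Ω), x ∈ K' ⊔ C := by
      intro x hx
      induction hx using Algebra.adjoin_induction with
      | mem y hy =>
        rw [Set.mem_singleton_iff] at hy
        subst hy
        exact (le_sup_right : C ≤ K' ⊔ C) (IntermediateField.mem_adjoin_simple_self F ζ)
      | algebraMap y =>
        exact (le_sup_left : K' ≤ K' ⊔ C) ⟨y, rfl⟩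
      | add a b _ _ ha hb => exact add_mem ha hb
      | mul a b _ _ ha hb => exact mul_mem ha hb
    rw [eq_top_iff]
    intro x _
    apply key
    rw [IsCyclotomicExtension.adjoin_primitive_root_eq_top hζ]; trivial
  haveI : Normal F (K' ⊔ C : IntermediateField F Ω) := inferInstance
  haveI : Normal F (⊤ : IntermediateField F Ω) := htop ▸ this
  haveI : Normal F Ω := Normal.of_algEquiv (IntermediateField.topEquiv (F := F) (E := Ω))
  exact ⟨⟩

end cxOmega

section cxOmega2

variable {F K : Type*} [Field F] [NumberField F] [Field K] [NumberField K] [Algebra F K]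
  [IsGalois F K] {r : ℕ} [Fact r.Prime]

theorem cx_isGalois_omega (F K : Type*) [Field F] [NumberField F] [Field K] [NumberField K]
    [Algebra F K] [IsGalois F K] (r : ℕ) [Fact r.Prime] : IsGalois F (CyclotomicField r K) :=
  haveI : NeZero r := ⟨(Fact.out : r.Prime).ne_zero⟩
  cx_isGalois_omega' F K r

/-- The chosen primitive `r`-th root of unity of `Ω = K(ζ_r)`. -/
noncomputable def cxZeta (K : Type*) [Field K] [NumberField K] (r : ℕ) [Fact r.Prime] :
    CyclotomicField r K :=
  haveI : NeZero r := ⟨(Fact.out : r.Prime).ne_zero⟩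
  IsCyclotomicExtension.zeta r K (CyclotomicField r K)

theorem cx_zeta_spec (K : Type*) [Field K] [NumberField K] (r : ℕ) [Fact r.Prime] :
    IsPrimitiveRoot (cxZeta K r) r :=
  haveI : NeZero r := ⟨(Fact.out : r.Prime).ne_zero⟩
  IsCyclotomicExtension.zeta_spec r K (CyclotomicField r K)

/-- The cyclotomic character `Gal(Ω/F) → (ℤ/r)ˣ`. -/
noncomputable def cxCyc (F K : Type*) [Field F] [NumberField F] [Field K] [NumberField K]
    [Algebra F K] (r : ℕ) [Fact r.Prime] :
    Gal(CyclotomicField r K/F) →* (ZMod r)ˣ :=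
  haveI : NeZero r := ⟨(Fact.out : r.Prime).ne_zero⟩
  (cx_zeta_spec K r).autToPow F

theorem cx_cyc_spec (σ : Gal(CyclotomicField r K/F)) :
    σ (cxZeta K r) = cxZeta K r ^ ((cxCyc F K r σ : ZMod r)).val :=
  haveI : NeZero r := ⟨(Fact.out : r.Prime).ne_zero⟩
  ((cx_zeta_spec K r).autToPow_spec F σ).symm

/-- Restriction `Gal(Ω/F) → Gal(K/F)`. -/
noncomputable def cxRes (F K : Type*) [Field F] [NumberField F] [Field K] [NumberField K]
    [Algebra F K] [IsGalois F K] (r : ℕ) [Fact r.Prime] :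
    Gal(CyclotomicField r K/F) →* Gal(K/F) :=
  AlgEquiv.restrictNormalHom K

theorem cx_res_commutes (σ : Gal(CyclotomicField r K/F)) (y : K) :
    algebraMap K (CyclotomicField r K) (cxRes F K r σ y) =
      σ (algebraMap K (CyclotomicField r K) y) :=
  AlgEquiv.restrictNormal_commutes σ K y

/-- An automorphism of `Ω = K(ζ_r)` over `F` is determined by its restriction to `K` and its
action on `ζ_r`. -/
theorem cx_eq_one_of_res_of_cyc (σ : Gal(CyclotomicField r K/F)) (h1 : cxRes F K r σ = 1)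
    (h2 : cxCyc F K r σ = 1) : σ = 1 := by
  haveI : NeZero r := ⟨(Fact.out : r.Prime).ne_zero⟩
  have hr : 1 < r := (Fact.out : r.Prime).one_lt
  haveI : Fact (1 < r) := ⟨hr⟩
  have hz : σ (cxZeta K r) = cxZeta K r := by
    rw [cx_cyc_spec, h2, Units.val_one, ZMod.val_one, pow_one]
  have hK : ∀ y : K, σ (algebraMap K (CyclotomicField r K) y) = algebraMap K _ y := by
    intro y
    rw [← cx_res_commutes, h1, AlgEquiv.one_apply]
  have key : ∀ x ∈ Algebra.adjoin K ({cxZeta K r} : Set (CyclotomicField r K)), σ x = x := by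
    intro x hx
    induction hx using Algebra.adjoin_induction with
    | mem y hy =>
      rw [Set.mem_singleton_iff] at hy
      subst hy
      exact hz
    | algebraMap y => exact hK y
    | add a b _ _ ha hb => rw [map_add, ha, hb]
    | mul a b _ _ ha hb => rw [map_mul, ha, hb]
  ext x
  rw [AlgEquiv.one_apply]
  apply key
  rw [IsCyclotomicExtension.adjoin_primitive_root_eq_top (cx_zeta_spec K r)]
  trivial

theorem cx_res_cyc_injective :
    Function.Injective ((cxRes F K r).prod (cxCyc F K r)) := by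
  rw [injective_iff_map_eq_one]
  intro σ hσ
  rw [MonoidHom.prod_apply, Prod.mk_eq_one] at hσ
  exact cx_eq_one_of_res_of_cyc σ hσ.1 hσ.2

/-- `Gal(Ω/F)` is commutative when `Gal(K/F)` is. -/
theorem cx_omega_mul_comm [IsMulCommutative Gal(K/F)] (σ τ : Gal(CyclotomicField r K/F)) :
    σ * τ = τ * σ := by
  apply cx_res_cyc_injective
  rw [map_mul, map_mul]
  rw [MonoidHom.prod_apply, MonoidHom.prod_apply]
  ext1
  · exact mul_comm' _ _
  · exact mul_comm _ _

variable (p : ℕ)

/-- `(ℤ/r)ˣ` modulo `p`-th powers. -/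
abbrev cxRr (r p : ℕ) : Type := (ZMod r)ˣ ⧸ (powMonoidHom p : (ZMod r)ˣ →* (ZMod r)ˣ).range

/-- `κ = (restriction to K, cyclotomic character mod p-th powers)`. -/
noncomputable def cxKappa (F K : Type*) [Field F] [NumberField F] [Field K] [NumberField K]
    [Algebra F K] [IsGalois F K] (r : ℕ) [Fact r.Prime] (p : ℕ) :
    Gal(CyclotomicField r K/F) →* Gal(K/F) × cxRr r p :=
  (cxRes F K r).prod ((QuotientGroup.mk' _).comp (cxCyc F K r))

theorem cx_rr_pow (x : cxRr r p) : x ^ p = 1 := by
  obtain ⟨y, rfl⟩ := QuotientGroup.mk_surjective x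
  rw [← QuotientGroup.mk_pow, QuotientGroup.eq_one_iff]
  exact ⟨y, rfl⟩

/-- The subgroup `U = κ⁻¹⟨(g, [n])⟩`. -/
noncomputable def cxU (r p : ℕ) [Fact r.Prime] (g : Gal(K/F)) (n : (ZMod r)ˣ) :
    Subgroup Gal(CyclotomicField r K/F) :=
  Subgroup.comap (cxKappa F K r p) (Subgroup.zpowers (g, (QuotientGroup.mk n : cxRr r p)))

/-- The field `E = Ω^U`. -/
noncomputable def cxE (r p : ℕ) [Fact r.Prime] (g : Gal(K/F)) (n : (ZMod r)ˣ) :
    IntermediateField F (CyclotomicField r K) :=
  IntermediateField.fixedField (cxU r p g n)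

/-- The subgroup `U₀ = ker κ` inside `Gal(Ω/E)`. -/
noncomputable def cxU0 (r p : ℕ) [Fact r.Prime] (g : Gal(K/F)) (n : (ZMod r)ˣ) :
    Subgroup Gal(CyclotomicField r K/cxE r p g n) :=
  ((cxKappa F K r p).comp (AlgEquiv.restrictScalarsHom F)).ker

/-- The field `L = Ω^{U₀}`, as an extension of `E`. -/
noncomputable def cxL (r p : ℕ) [Fact r.Prime] (g : Gal(K/F)) (n : (ZMod r)ˣ) :
    IntermediateField (cxE r p g n) (CyclotomicField r K) :=
  IntermediateField.fixedField (cxU0 r p g n)

variable {p} (g : Gal(K/F)) (n : (ZMod r)ˣ)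

theorem cx_isGalois_E_omega : IsGalois (cxE r p g n) (CyclotomicField r K) :=
  haveI := cx_isGalois_omega F K r
  inferInstance

theorem cx_isGalois_L_omega : IsGalois (cxL r p g n) (CyclotomicField r K) :=
  haveI := cx_isGalois_E_omega (p := p) g n
  inferInstance

theorem cx_U0_normal : (cxU0 r p g n).Normal := by
  unfold cxU0
  infer_instance

theorem cx_isGalois_E_L : IsGalois (cxE r p g n) (cxL r p g n) := by
  haveI := cx_isGalois_E_omega (p := p) g n
  haveI := cx_U0_normal (p := p) g n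
  exact IsGalois.of_fixedField_normal_subgroup (cxU0 r p g n)

/-- Elements of `Gal(Ω/E)` land in `⟨(g,[n])⟩` under `κ`. -/
theorem cx_kappa_mem_zpowers (σ : Gal(CyclotomicField r K/cxE r p g n)) :
    cxKappa F K r p (σ.restrictScalars F) ∈
      Subgroup.zpowers (g, (QuotientGroup.mk n : cxRr r p)) := by
  haveI := cx_isGalois_omega F K r
  have h1 : σ.restrictScalars F ∈ (cxE r p g n).fixingSubgroup := by
    rw [IntermediateField.mem_fixingSubgroup_iff]
    intro x hx
    exact σ.commutes ⟨x, hx⟩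
  unfold cxE at h1
  rw [IntermediateField.fixingSubgroup_fixedField] at h1
  exact h1

/-- `[L : E] ≤ p`. -/
theorem cx_finrank_E_L_le [hp : Fact p.Prime] (hg : g ^ p = 1) :
    Module.finrank (cxE r p g n) (cxL r p g n) ≤ p := by
  haveI := cx_isGalois_omega F K r
  haveI := cx_isGalois_E_omega (p := p) g n
  rw [IntermediateField.finrank_eq_fixingSubgroup_index, cxL,
    IntermediateField.fixingSubgroup_fixedField, cxU0, Subgroup.index_ker]
  set t : Gal(K/F) × cxRr r p := (g, (QuotientGroup.mk n : cxRr r p)) with ht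
  have hle : ((cxKappa F K r p).comp (AlgEquiv.restrictScalarsHom F :
      Gal(CyclotomicField r K/cxE r p g n) →* _)).range ≤ Subgroup.zpowers t := by
    rintro _ ⟨σ, rfl⟩
    exact cx_kappa_mem_zpowers g n σ
  have htp : t ^ p = 1 := by
    rw [ht, Prod.pow_mk, hg, cx_rr_pow]; rfl
  have hcard : Nat.card (Subgroup.zpowers t) ≤ p := by
    rw [Nat.card_zpowers]
    exact Nat.le_of_dvd hp.out.pos (orderOf_dvd_of_pow_eq_one htp)
  calc Nat.card _ ≤ Nat.card (Subgroup.zpowers t) :=
        Nat.card_le_card_of_injective (Subgroup.inclusion hle) (Subgroup.inclusion_injective hle)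
    _ ≤ p := hcard


/-- Elements of `Gal(Ω/L)` act on `ζ_r` through `p`-th powers. -/
theorem cx_cyc_mem_range_of_L (σ : Gal(CyclotomicField r K/cxL r p g n)) :
    ∃ y : (ZMod r)ˣ,
      cxCyc F K r ((σ.restrictScalars (cxE r p g n)).restrictScalars F) = y ^ p := by
  haveI := cx_isGalois_omega F K r
  haveI := cx_isGalois_E_omega (p := p) g n
  have h1 : σ.restrictScalars (cxE r p g n) ∈ (cxL r p g n).fixingSubgroup := by
    rw [IntermediateField.mem_fixingSubgroup_iff]
    intro x hx
    exact σ.commutes ⟨x, hx⟩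
  unfold cxL at h1
  rw [IntermediateField.fixingSubgroup_fixedField] at h1
  unfold cxU0 at h1
  rw [MonoidHom.mem_ker] at h1
  have h2 : cxKappa F K r p ((σ.restrictScalars (cxE r p g n)).restrictScalars F) = 1 := h1
  rw [cxKappa, MonoidHom.prod_apply, Prod.mk_eq_one] at h2
  have h3 := h2.2
  rw [MonoidHom.comp_apply, QuotientGroup.mk'_apply, QuotientGroup.eq_one_iff] at h3
  obtain ⟨y, hy⟩ := h3
  exact ⟨y, hy.symm⟩

/-- An element of `Gal(Ω/F)` whose `κ`-image lies in `⟨(g,[n])⟩` fixes `E`. -/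
theorem cx_fixes_E (Φ : Gal(CyclotomicField r K/F))
    (hΦ : cxKappa F K r p Φ ∈ Subgroup.zpowers (g, (QuotientGroup.mk n : cxRr r p)))
    (x : CyclotomicField r K) (hx : x ∈ cxE r p g n) : Φ x = x := by
  unfold cxE at hx
  rw [IntermediateField.mem_fixedField_iff] at hx
  exact hx Φ hΦ

/-- `K ⊆ L`. -/
theorem cx_algebraMap_mem_L (y : K) :
    algebraMap K (CyclotomicField r K) y ∈ cxL r p g n := by
  unfold cxL
  rw [IntermediateField.mem_fixedField_iff]
  intro σ hσ
  rw [cxU0, MonoidHom.mem_ker] at hσ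
  have h2 : cxKappa F K r p (σ.restrictScalars F) = 1 := hσ
  rw [cxKappa, MonoidHom.prod_apply, Prod.mk_eq_one] at h2
  have h3 := cx_res_commutes (σ.restrictScalars F) y
  rw [h2.1, AlgEquiv.one_apply] at h3
  exact h3.symm

/-- The embedding `K → L`. -/
noncomputable def cxKtoL : K →+* cxL r p g n where
  toFun y := ⟨algebraMap K (CyclotomicField r K) y, cx_algebraMap_mem_L g n y⟩
  map_one' := Subtype.ext (map_one _)
  map_mul' a b := Subtype.ext (map_mul _ a b)
  map_zero' := Subtype.ext (map_zero _)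
  map_add' a b := Subtype.ext (map_add _ a b)

/-- `L` as a `K`-algebra (not an instance). -/
@[instance_reducible]
noncomputable def cxAlgebraKL : Algebra K (cxL r p g n) := (cxKtoL g n).toAlgebra

theorem cx_isScalarTower_F_K_L :
    letI := cxAlgebraKL (p := p) g n
    IsScalarTower F K (cxL r p g n) := by
  letI := cxAlgebraKL (p := p) g n
  refine IsScalarTower.of_algebraMap_eq (fun x => ?_)
  apply Subtype.ext
  exact IsScalarTower.algebraMap_apply F K (CyclotomicField r K) x

theorem cx_isScalarTower_K_L_omega :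
    letI := cxAlgebraKL (p := p) g n
    IsScalarTower K (cxL r p g n) (CyclotomicField r K) := by
  letI := cxAlgebraKL (p := p) g n
  refine IsScalarTower.of_algebraMap_eq (fun x => ?_)
  rfl

end cxOmega2

section cxFrobGeneral

variable {M Ω : Type*} [Field M] [NumberField M] [Field Ω] [NumberField Ω] [Algebra M Ω]
  [IsGalois M Ω]

theorem cx_coe_smul (σ : Gal(Ω/M)) (x : 𝓞 Ω) : ((σ • x : 𝓞 Ω) : Ω) = σ (x : Ω) := rfl

/-- A Frobenius element at a prime not containing `r` raises `r`-th roots of unity to the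
power `N(𝔭)`. -/
theorem cx_frob_apply_root (σ : Gal(Ω/M)) (P : Ideal (𝓞 Ω)) {ζ : Ω} {r : ℕ}
    (hζ : ζ ^ r = 1) (hr : r ≠ 0) (hP : (r : 𝓞 Ω) ∉ P) (hσ : IsArithFrobAt (𝓞 M) σ P) :
    σ ζ = ζ ^ Nat.card (𝓞 M ⧸ P.under (𝓞 M)) := by
  have hint : IsIntegral ℤ ζ := by
    refine ⟨Polynomial.X ^ r - 1, Polynomial.monic_X_pow_sub_C 1 hr, ?_⟩
    simp [hζ]
  let ζ' : 𝓞 Ω := ⟨ζ, hint⟩
  have hζ' : ζ' ^ r = 1 := by
    apply RingOfIntegers.ext
    change algebraMap (𝓞 Ω) Ω (ζ' ^ r) = algebraMap (𝓞 Ω) Ω 1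
    rw [map_pow, map_one]
    exact hζ
  have h := AlgHom.IsArithFrobAt.apply_of_pow_eq_one hσ hζ' hP
  have h2 := congrArg (algebraMap (𝓞 Ω) Ω) h
  rw [map_pow] at h2
  exact h2

end cxFrobGeneral
end Fermat.Agent.S14
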