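import Mathlib
import Fermat.Agent.S14.Artin.Frob
import Fermat.Agent.S14.Cross.Omega

/-!
# S14, crossing block: Frobenius elements in `Ω = K(ζ_r)`
-/

open NumberField IntermediateField

namespace Fermat.Agent.S14

set_option linter.style.haveILetI false
set_option linter.unusedSectionVars false

section cxFrobOmega

variable {F K : Type*} [Field F] [NumberField F] [Field K] [NumberField K] [Algebra F K]
  [IsGalois F K] {r : ℕ} [Fact r.Prime]

attribute [local instance] cx_isGalois_omega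

/-- `ζ^a = ζ^b` forces `a ≡ b mod r`. -/
theorem cx_natCast_eq_of_zeta_pow_eq {a b : ℕ} (h : cxZeta K r ^ a = cxZeta K r ^ b) :
    (a : ZMod r) = (b : ZMod r) := by
  have hz := cx_zeta_spec K r
  have hfin : IsOfFinOrder (cxZeta K r) :=
    isOfFinOrder_iff_pow_eq_one.mpr ⟨r, (Fact.out : r.Prime).pos, hz.pow_eq_one⟩
  have h1 := hfin.pow_eq_pow_iff_modEq.mp h
  rw [← hz.eq_orderOf] at h1
  exact (ZMod.natCast_eq_natCast_iff a b r).mpr h1

/-- The cyclotomic character of a Frobenius element at a prime not above `r`. -/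
theorem cx_cyc_of_isArithFrobAt (Φ : Gal(CyclotomicField r K/F))
    (P : Ideal (𝓞 (CyclotomicField r K))) (hP : (r : 𝓞 (CyclotomicField r K)) ∉ P)
    (hΦ : IsArithFrobAt (𝓞 F) Φ P) :
    ((cxCyc F K r Φ : (ZMod r)ˣ) : ZMod r) = (Nat.card (𝓞 F ⧸ P.under (𝓞 F)) : ZMod r) := by
  have h1 := cx_frob_apply_root Φ P (cx_zeta_spec K r).pow_eq_one
    (Fact.out : r.Prime).ne_zero hP hΦ
  rw [cx_cyc_spec] at h1
  have h2 := cx_natCast_eq_of_zeta_pow_eq h1
  rwa [ZMod.natCast_val, ZMod.cast_id', id] at h2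

/-- The restriction to `K` of a Frobenius element of `Ω/F` is the Frobenius of `K/F`. -/
theorem cx_res_of_isArithFrobAt [IsMulCommutative Gal(K/F)] (Φ : Gal(CyclotomicField r K/F))
    {q : Ideal (𝓞 F)} [q.IsPrime] (hq0 : q ≠ ⊥) (hu : am_Unram F K q)
    (P : Ideal (𝓞 (CyclotomicField r K))) [P.IsPrime] [P.LiesOver q]
    (hΦ : IsArithFrobAt (𝓞 F) Φ P) :
    cxRes F K r Φ = am_frob F K q := by
  let Q : Ideal (𝓞 K) := P.under (𝓞 K)
  haveI : Q.IsPrime := inferInstance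
  haveI : Q.LiesOver q := by
    constructor
    have h1 : P.under (𝓞 F) = Q.under (𝓞 F) := (Ideal.under_under (A := 𝓞 F) (B := 𝓞 K) P).symm
    rw [← h1]
    exact Ideal.LiesOver.over
  apply am_frob_unique hq0 hu Q
  intro x
  have h1 := hΦ (algebraMap (𝓞 K) (𝓞 (CyclotomicField r K)) x)
  have h2 : Q.under (𝓞 F) = P.under (𝓞 F) := Ideal.under_under (A := 𝓞 F) (B := 𝓞 K) P
  rw [h2]
  change algebraMap (𝓞 K) (𝓞 (CyclotomicField r K)) _ ∈ P
  rw [map_sub, map_pow]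
  convert h1 using 2
  apply RingOfIntegers.ext
  exact cx_res_commutes Φ (x : K)


variable {p : ℕ} (g : Gal(K/F)) (n : (ZMod r)ˣ)

/-- If a Frobenius element `Φ` at `P` lies in `U`, the prime of `E` below `P` has residue
degree one over `F`. -/
theorem cx_inertiaDeg_E_eq_one (Φ : Gal(CyclotomicField r K/F))
    (hκ : cxKappa F K r p Φ ∈ Subgroup.zpowers (g, (QuotientGroup.mk n : cxRr r p)))
    {q : Ideal (𝓞 F)} [q.IsPrime] (hq0 : q ≠ ⊥)
    (P : Ideal (𝓞 (CyclotomicField r K))) [P.IsPrime] [P.LiesOver q]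
    (hΦ : IsArithFrobAt (𝓞 F) Φ P) :
    (P.under (𝓞 (cxE r p g n))).inertiaDeg (𝓞 F) = 1 := by
  set Q : Ideal (𝓞 (cxE r p g n)) := P.under (𝓞 (cxE r p g n)) with hQdef
  haveI : Q.IsPrime := inferInstance
  have hunder : Q.under (𝓞 F) = P.under (𝓞 F) :=
    Ideal.under_under (A := 𝓞 F) (B := 𝓞 (cxE r p g n)) P
  have hPq : P.under (𝓞 F) = q := (Ideal.LiesOver.over (P := P) (p := q)).symm
  haveI : Q.LiesOver q := ⟨by rw [hunder, hPq]⟩
  have hQ0 : Q ≠ ⊥ := am_ne_bot_of_liesOver hq0 Q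
  haveI : Finite (𝓞 (cxE r p g n) ⧸ Q) := am_finite_quotient _ hQ0
  haveI := am_isMaximal hQ0
  letI : Field (𝓞 (cxE r p g n) ⧸ Q) := Ideal.Quotient.field Q
  have hN : 1 < Nat.card (𝓞 F ⧸ q) := am_one_lt_natCard_quotient hq0
  have hcard := am_natCard_quotient q hq0 Q
  have hpow : ∀ x : 𝓞 (cxE r p g n) ⧸ Q, x ^ Nat.card (𝓞 F ⧸ q) = x := by
    intro x
    obtain ⟨x, rfl⟩ := Ideal.Quotient.mk_surjective x
    rw [← map_pow, eq_comm, Ideal.Quotient.eq]
    change algebraMap (𝓞 (cxE r p g n)) (𝓞 (CyclotomicField r K)) _ ∈ P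
    have h1 := hΦ (algebraMap (𝓞 (cxE r p g n)) (𝓞 (CyclotomicField r K)) x)
    rw [hPq] at h1
    rw [map_sub, map_pow]
    convert h1 using 2
    apply RingOfIntegers.ext
    exact (cx_fixes_E g n Φ hκ _ (x : cxE r p g n).2).symm
  have hle := am_card_le_of_forall_pow_eq hN hpow
  rw [hcard] at hle
  have hf : 0 < Q.inertiaDeg (𝓞 F) := Ideal.inertiaDeg_pos Q (𝓞 F)
  by_contra hne
  have h2 : 2 ≤ Q.inertiaDeg (𝓞 F) := by omega
  have h3 : Nat.card (𝓞 F ⧸ q) ^ 2 ≤ Nat.card (𝓞 F ⧸ q) ^ Q.inertiaDeg (𝓞 F) :=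
    Nat.pow_le_pow_right (by omega) h2
  nlinarith


/-- **Degree-one primes of `E`.** A prime `q` of `F` (unramified in `K`, not above `r`) whose
Frobenius in `K/F` is `g ^ k` and whose norm is `n ^ k` times a `p`-th power mod `r` is the
relative norm of a prime of `E`. -/
theorem cx_exists_prime_E [IsMulCommutative Gal(K/F)]
    {q : Ideal (𝓞 F)} [q.IsPrime] (hq0 : q ≠ ⊥) (hu : am_Unram F K q)
    (hqr : (r : 𝓞 F) ∉ q) (k : ℕ) (hk1 : am_frob F K q = g ^ k) (y : (ZMod r)ˣ)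
    (hk2 : (Nat.card (𝓞 F ⧸ q) : ZMod r) = (n : ZMod r) ^ k * (y : ZMod r) ^ p) :
    ∃ Q : Ideal (𝓞 (cxE r p g n)), Q.IsPrime ∧ Q ≠ ⊥ ∧ Q.LiesOver q ∧
      Ideal.relNorm (𝓞 F) Q = q := by
  obtain ⟨P, hP1, hP2, hP0⟩ := am_exists_prime_over (CyclotomicField r K) q hq0
  haveI := hP1
  haveI := hP2
  haveI : Finite (𝓞 (CyclotomicField r K) ⧸ P) := am_finite_quotient _ hP0
  obtain ⟨Φ, hΦ⟩ := IsArithFrobAt.exists_of_isInvariant (𝓞 F) Gal(CyclotomicField r K/F) P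
  have hPq : P.under (𝓞 F) = q := (Ideal.LiesOver.over (P := P) (p := q)).symm
  have hPr : (r : 𝓞 (CyclotomicField r K)) ∉ P := by
    intro h
    apply hqr
    rw [← hPq, Ideal.under, Ideal.mem_comap, map_natCast]
    exact h
  have h1 := cx_res_of_isArithFrobAt Φ hq0 hu P hΦ
  have h2 := cx_cyc_of_isArithFrobAt Φ P hPr hΦ
  rw [hPq, hk2] at h2
  have h3 : cxCyc F K r Φ = n ^ k * y ^ p := by
    apply Units.ext
    rw [h2]
    push_cast
    rfl
  have hκ : cxKappa F K r p Φ ∈ Subgroup.zpowers (g, (QuotientGroup.mk n : cxRr r p)) := by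
    refine ⟨(k : ℤ), ?_⟩
    change (g, (QuotientGroup.mk n : cxRr r p)) ^ (k : ℤ) = cxKappa F K r p Φ
    rw [zpow_natCast, cxKappa, MonoidHom.prod_apply, Prod.pow_mk]
    ext1
    · exact (h1.trans hk1).symm
    · change (QuotientGroup.mk n : cxRr r p) ^ k = QuotientGroup.mk (cxCyc F K r Φ)
      rw [h3, QuotientGroup.mk_mul, QuotientGroup.mk_pow, QuotientGroup.mk_pow, cx_rr_pow,
        mul_one]
  have hf := cx_inertiaDeg_E_eq_one g n Φ hκ hq0 P hΦ
  set Q : Ideal (𝓞 (cxE r p g n)) := P.under (𝓞 (cxE r p g n)) with hQdef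
  haveI : Q.IsPrime := inferInstance
  have hunder : Q.under (𝓞 F) = P.under (𝓞 F) :=
    Ideal.under_under (A := 𝓞 F) (B := 𝓞 (cxE r p g n)) P
  haveI hlo : Q.LiesOver q := ⟨by rw [hunder, hPq]⟩
  have hQ0 : Q ≠ ⊥ := am_ne_bot_of_liesOver hq0 Q
  haveI := am_isMaximal hQ0
  haveI := am_isMaximal hq0
  refine ⟨Q, inferInstance, hQ0, hlo, ?_⟩
  rw [Ideal.relNorm_eq_pow_of_isMaximal Q q, hf, pow_one]


/-- The norm of a prime of `L` not above `r` is a `p`-th power mod `r`. -/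
theorem cx_card_quotient_prime_L (Q : Ideal (𝓞 (cxL r p g n))) [Q.IsPrime] (hQ0 : Q ≠ ⊥)
    (hQr : (r : 𝓞 (cxL r p g n)) ∉ Q) :
    ∃ y : (ZMod r)ˣ, (Nat.card (𝓞 (cxL r p g n) ⧸ Q) : ZMod r) = (y : ZMod r) ^ p := by
  haveI := cx_isGalois_L_omega (p := p) g n
  obtain ⟨P, hP1, hP2, hP0⟩ := am_exists_prime_over (CyclotomicField r K) Q hQ0
  haveI := hP1
  haveI := hP2
  haveI : Finite (𝓞 (CyclotomicField r K) ⧸ P) := am_finite_quotient _ hP0
  obtain ⟨σ, hσ⟩ := IsArithFrobAt.exists_of_isInvariant (𝓞 (cxL r p g n))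
    Gal(CyclotomicField r K/cxL r p g n) P
  have hPq : P.under (𝓞 (cxL r p g n)) = Q := (Ideal.LiesOver.over (P := P) (p := Q)).symm
  have hPr : (r : 𝓞 (CyclotomicField r K)) ∉ P := by
    intro h
    apply hQr
    rw [← hPq, Ideal.under, Ideal.mem_comap, map_natCast]
    exact h
  have h1 := cx_frob_apply_root σ P (cx_zeta_spec K r).pow_eq_one
    (Fact.out : r.Prime).ne_zero hPr hσ
  rw [hPq] at h1
  have h2 := cx_cyc_spec ((σ.restrictScalars (cxE r p g n)).restrictScalars F)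
  have h3 : ((σ.restrictScalars (cxE r p g n)).restrictScalars F) (cxZeta K r) =
      σ (cxZeta K r) := rfl
  rw [h3, h1] at h2
  have h4 := cx_natCast_eq_of_zeta_pow_eq h2
  rw [ZMod.natCast_val, ZMod.cast_id', id] at h4
  obtain ⟨y, hy⟩ := cx_cyc_mem_range_of_L g n σ
  refine ⟨y, ?_⟩
  rw [h4, hy]
  push_cast
  rfl

/-- The norm of an ideal of `L` coprime to `r` is a `p`-th power mod `r`. -/
theorem cx_absNorm_L (B : Ideal (𝓞 (cxL r p g n))) (hB : (Ideal.absNorm B).Coprime r) :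
    ∃ y : (ZMod r)ˣ, (Ideal.absNorm B : ZMod r) = (y : ZMod r) ^ p := by
  have hr : r.Prime := Fact.out
  have hB0 : B ≠ ⊥ := by
    rintro rfl
    rw [Ideal.absNorm_bot, Nat.coprime_zero_left] at hB
    exact hr.one_lt.ne' hB
  revert hB
  rw [← Ideal.prod_normalizedFactors_eq_self hB0]
  refine Multiset.prod_induction
    (fun I : Ideal (𝓞 (cxL r p g n)) => (Ideal.absNorm I).Coprime r →
      ∃ y : (ZMod r)ˣ, (Ideal.absNorm I : ZMod r) = (y : ZMod r) ^ p) _ ?_ ?_ ?_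
  · intro I J hI hJ hIJ
    rw [map_mul] at hIJ
    obtain ⟨y1, hy1⟩ := hI (Nat.Coprime.coprime_mul_right hIJ)
    obtain ⟨y2, hy2⟩ := hJ (Nat.Coprime.coprime_mul_left hIJ)
    refine ⟨y1 * y2, ?_⟩
    rw [map_mul, Nat.cast_mul, hy1, hy2, Units.val_mul, mul_pow]
  · intro _
    refine ⟨1, ?_⟩
    simp
  · intro Q hQ hQr
    have hQ0 : Q ≠ ⊥ := UniqueFactorizationMonoid.ne_zero_of_mem_normalizedFactors hQ
    rw [Ideal.mem_normalizedFactors_iff hB0] at hQ
    haveI := hQ.1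
    have hQr' : (r : 𝓞 (cxL r p g n)) ∉ Q := by
      intro h
      have h1 := Ideal.absNorm_mem Q
      have h2 : ((1 : ℤ) : 𝓞 (cxL r p g n)) ∈ Q := by
        have hco : IsCoprime (Ideal.absNorm Q : ℤ) (r : ℤ) := Nat.isCoprime_iff_coprime.mpr hQr
        obtain ⟨u, v, huv⟩ := hco
        rw [← huv]
        push_cast
        exact Q.add_mem (Q.mul_mem_left _ h1) (Q.mul_mem_left _ h)
      rw [Int.cast_one] at h2
      exact hQ.1.ne_top ((Ideal.eq_top_iff_one Q).mpr h2)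
    have := cx_card_quotient_prime_L g n Q hQ0 hQr'
    rwa [Ideal.absNorm_apply, Submodule.cardQuot_apply]

end cxFrobOmega
end Fermat.Agent.S14
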