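import Mathlib
import Fermat.Agent.S14.Artin.ArtinMap
import Fermat.Agent.S14.Cross.FrobOmega
import Fermat.Agent.S14.Cross.Coprime
import Fermat.Agent.S14.Cross.RayClass
import Fermat.Agent.S14.Density.SecondIneq
import Fermat.Agent.S14.Count.RayCountDn

/-!
# S14, crossing block: the crossing lemma
-/

open NumberField IsDedekindDomain

namespace Fermat.Agent.S14

set_option linter.style.haveILetI false
set_option linter.unusedSectionVars false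

universe u

section cxGroup2

variable {M Q R : Type*} [CommMonoid M] [CommGroup Q] [Finite Q] [CommGroup R]

/-- Step 5 of the crossing, abstract form: a quotient `Q` of order `≤ p` through which a
character `χ` with values in a group of exponent `p` factors, `χ a₁ ≠ 1`. Then `χ` determines
the class: `χ a₂ = χ a₁ ^ k → c a₂ = c a₁ ^ k`. -/
theorem cx_class_eq_pow {p : ℕ} [hp : Fact p.Prime] (c : M →* Q) (χ : M →* R)
    (hQ : Nat.card Q ≤ p) (hR : ∀ x : R, x ^ p = 1)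
    (hfac : ∀ a b : M, c a = c b → χ a = χ b)
    (a₁ a₂ : M) (h1 : χ a₁ ≠ 1) (k : ℕ) (h2 : χ a₂ = χ a₁ ^ k) :
    c a₂ = c a₁ ^ k := by
  have hordχ : orderOf (χ a₁) = p := by
    have h3 : orderOf (χ a₁) ∣ p := orderOf_dvd_of_pow_eq_one (hR _)
    rcases (Nat.dvd_prime hp.out).mp h3 with h4 | h4
    · exact absurd (orderOf_eq_one_iff.mp h4) h1
    · exact h4
  set x₁ := c a₁ with hx₁
  have hdvd : p ∣ orderOf x₁ := by
    rw [← hordχ, orderOf_dvd_iff_pow_eq_one, ← map_pow]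
    have h3 : c (a₁ ^ orderOf x₁) = c 1 := by
      rw [map_pow, map_one, pow_orderOf_eq_one]
    rw [hfac _ _ h3, map_one]
  have hle : orderOf x₁ ≤ Nat.card Q := orderOf_le_card
  have hpos : 0 < orderOf x₁ := orderOf_pos x₁
  have hord : orderOf x₁ = p := le_antisymm (hle.trans hQ) (Nat.le_of_dvd hpos hdvd)
  have hcard : Nat.card Q = p := le_antisymm hQ (hord ▸ hle)
  have htop : Subgroup.zpowers x₁ = ⊤ := by
    apply Subgroup.eq_top_of_card_eq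
    rw [Nat.card_zpowers, hord, hcard]
  have hmem : c a₂ ∈ Subgroup.zpowers x₁ := by rw [htop]; trivial
  obtain ⟨j, hj⟩ := (mem_powers_iff_mem_zpowers.mpr hmem)
  have h4 : c a₂ = c (a₁ ^ j) := by rw [map_pow]; exact hj.symm
  have h5 := hfac _ _ h4
  rw [map_pow, h2] at h5
  have h6 : k ≡ j [MOD p] := by
    rw [← hordχ]
    exact pow_eq_pow_iff_modEq.mp h5
  rw [← hj]
  rw [← hord] at h6
  exact pow_eq_pow_iff_modEq.mpr h6.symm

end cxGroup2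

section cxChi

variable (E : Type*) [Field E] [NumberField E] (r p : ℕ) [Fact r.Prime]

/-- The character `a ↦ [N a] ∈ (ℤ/r)ˣ / p-th powers` on the ideals of `𝓞 E` prime to `r`. -/
noncomputable def cxChi :
    (rc_coprimeSubmonoid (Ideal.span {(r : 𝓞 E)})) →* cxRr r p where
  toFun a := QuotientGroup.mk
    (ZMod.unitOfCoprime (Ideal.absNorm a.1) (cx_coprime_absNorm_of_isCoprime a.2))
  map_one' := by
    rw [← QuotientGroup.mk_one]
    congr 1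
    apply Units.ext
    rw [ZMod.coe_unitOfCoprime]
    simp
  map_mul' a b := by
    rw [← QuotientGroup.mk_mul]
    congr 1
    apply Units.ext
    rw [Units.val_mul, ZMod.coe_unitOfCoprime, ZMod.coe_unitOfCoprime, ZMod.coe_unitOfCoprime]
    simp

variable {E r p}

/-- `χ a = χ b` as soon as `N a · y₁^p = N b · y₂^p` in `ℤ/r` for units `y₁ y₂`. -/
theorem cx_chi_eq_of_eq (a b : rc_coprimeSubmonoid (Ideal.span {(r : 𝓞 E)})) (y₁ y₂ : (ZMod r)ˣ)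
    (h : (Ideal.absNorm a.1 : ZMod r) * (y₁ : ZMod r) ^ p =
      (Ideal.absNorm b.1 : ZMod r) * (y₂ : ZMod r) ^ p) :
    cxChi E r p a = cxChi E r p b := by
  have h1 : ZMod.unitOfCoprime (Ideal.absNorm a.1) (cx_coprime_absNorm_of_isCoprime a.2) * y₁ ^ p =
      ZMod.unitOfCoprime (Ideal.absNorm b.1) (cx_coprime_absNorm_of_isCoprime b.2) * y₂ ^ p := by
    apply Units.ext
    rw [Units.val_mul, Units.val_mul, ZMod.coe_unitOfCoprime, ZMod.coe_unitOfCoprime,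
      Units.val_pow_eq_pow_val, Units.val_pow_eq_pow_val]
    exact h
  have h2 := congrArg (QuotientGroup.mk (s := (powMonoidHom p : (ZMod r)ˣ →* (ZMod r)ˣ).range)) h1
  rw [QuotientGroup.mk_mul, QuotientGroup.mk_mul, QuotientGroup.mk_pow, QuotientGroup.mk_pow,
    cx_rr_pow, cx_rr_pow, mul_one, mul_one] at h2
  exact h2

/-- `χ a = [u]^k` as soon as `N a = u^k · y^p` in `ℤ/r`. -/
theorem cx_chi_eq_pow (a : rc_coprimeSubmonoid (Ideal.span {(r : 𝓞 E)})) (u y : (ZMod r)ˣ)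
    (k : ℕ) (h : (Ideal.absNorm a.1 : ZMod r) = (u : ZMod r) ^ k * (y : ZMod r) ^ p) :
    cxChi E r p a = (QuotientGroup.mk u : cxRr r p) ^ k := by
  have h1 : ZMod.unitOfCoprime (Ideal.absNorm a.1) (cx_coprime_absNorm_of_isCoprime a.2) =
      u ^ k * y ^ p := by
    apply Units.ext
    rw [Units.val_mul, ZMod.coe_unitOfCoprime, Units.val_pow_eq_pow_val,
      Units.val_pow_eq_pow_val]
    exact h
  change (QuotientGroup.mk _ : cxRr r p) = _
  rw [h1, QuotientGroup.mk_mul, QuotientGroup.mk_pow, QuotientGroup.mk_pow, cx_rr_pow, mul_one]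

end cxChi

section cxMain

variable {F : Type*} {K : Type u} [Field F] [NumberField F] [Field K] [NumberField K]
  [Algebra F K] [IsGalois F K] [IsMulCommutative Gal(K/F)]

attribute [local instance] cxAlgebraKL cx_isScalarTower_F_K_L

/-- **The crossing lemma.** `K/F` abelian, unramified, `Gal(K/F)` of exponent `p`. Let `q₁ q₂`
be primes of `F` with `Frob q₂ = (Frob q₁)^c`, and `r` an auxiliary prime, prime to `N q₁ N q₂`,
such that `N q₁` is not a `p`-th power mod `r` while `N q₂ = (N q₁)^c x^p` mod `r`. Then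
`q₂ · q₁^(-c)` is, up to principal ideals, a norm from `K`. -/
theorem cx_crossing {p : ℕ} [hp : Fact p.Prime] (hp2 : p ≠ 2)
    (hexp : ∀ g : Gal(K/F), g ^ p = 1)
    (hunr : ∀ q : Ideal (𝓞 F), q.IsPrime → q ≠ ⊥ → am_Unram F K q)
    (q₁ q₂ : Ideal (𝓞 F)) [hq₁ : q₁.IsPrime] [hq₂ : q₂.IsPrime] (h10 : q₁ ≠ ⊥) (h20 : q₂ ≠ ⊥)
    (c : ℕ) (hfrob : am_frob F K q₂ = am_frob F K q₁ ^ c)
    (r : ℕ) [hr : Fact r.Prime] (hr1 : (Ideal.absNorm q₁).Coprime r)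
    (hr2 : (Ideal.absNorm q₂).Coprime r)
    (hnr : ¬ ∃ x : ZMod r, x ^ p = (Ideal.absNorm q₁ : ZMod r))
    (x : ZMod r) (hx0 : x ≠ 0)
    (hx : (Ideal.absNorm q₂ : ZMod r) = (Ideal.absNorm q₁ : ZMod r) ^ c * x ^ p) :
    ∃ α β : 𝓞 F, α ≠ 0 ∧ β ≠ 0 ∧ ∃ A₁ A₂ : Ideal (𝓞 K), A₁ ≠ ⊥ ∧ A₂ ≠ ⊥ ∧
      Ideal.span {α} * q₂ * Ideal.relNorm (𝓞 F) A₁ =
        Ideal.span {β} * q₁ ^ c * Ideal.relNorm (𝓞 F) A₂ := by
  have hpodd : Odd p := hp.out.odd_of_ne_two hp2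
  set g : Gal(K/F) := am_frob F K q₁ with hg
  set nU : (ZMod r)ˣ := ZMod.unitOfCoprime (Ideal.absNorm q₁) hr1 with hnU
  have hnUc : ((nU : (ZMod r)ˣ) : ZMod r) = (Ideal.absNorm q₁ : ZMod r) :=
    ZMod.coe_unitOfCoprime _ _
  set xU : (ZMod r)ˣ := Units.mk0 x hx0 with hxU
  set E := cxE r p g nU with hE
  set L := cxL r p g nU with hL
  haveI : IsGalois E L := cx_isGalois_E_L (p := p) g nU
  -- the two degree-one primes of `E`
  have hqr₁ : (r : 𝓞 F) ∉ q₁ := cx_natCast_notMem_of_coprime_absNorm hq₁.ne_top hr1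
  have hqr₂ : (r : 𝓞 F) ∉ q₂ := cx_natCast_notMem_of_coprime_absNorm hq₂.ne_top hr2
  obtain ⟨Q₁, hQ₁p, hQ₁0, hQ₁lo, hQ₁n⟩ := cx_exists_prime_E (p := p) g nU h10 (hunr q₁ hq₁ h10)
    hqr₁ 1 (pow_one g).symm 1 (by
      rw [am_natCard_quotient_eq_absNorm, pow_one, Units.val_one, one_pow, mul_one, hnUc])
  obtain ⟨Q₂, hQ₂p, hQ₂0, hQ₂lo, hQ₂n⟩ := cx_exists_prime_E (p := p) g nU h20 (hunr q₂ hq₂ h20)
    hqr₂ c hfrob xU (by
      rw [am_natCard_quotient_eq_absNorm, hnUc, hx]; rfl)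
  haveI := hQ₁p
  haveI := hQ₂p
  haveI := hQ₁lo
  haveI := hQ₂lo
  -- norms of `Q₁`, `Q₂`
  have hNQ₁ : Ideal.absNorm Q₁ = Ideal.absNorm q₁ := by rw [← hQ₁n, Ideal.absNorm_relNorm]
  have hNQ₂ : Ideal.absNorm Q₂ = Ideal.absNorm q₂ := by rw [← hQ₂n, Ideal.absNorm_relNorm]
  -- the modulus and the norm submonoid
  set m : Ideal (𝓞 E) := Ideal.span {(r : 𝓞 E)} with hm
  have hm0 : m ≠ ⊥ := cx_span_natCast_ne_bot hr.out.ne_zero
  have hmtop : m ≠ ⊤ := cx_span_natCast_ne_top hr.out.one_lt.ne'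
  let S : Submonoid (Ideal (𝓞 L)) :=
    { carrier := {B | (Ideal.absNorm B).Coprime r}
      one_mem' := by
        change (Ideal.absNorm (1 : Ideal (𝓞 L))).Coprime r
        rw [map_one]; exact Nat.coprime_one_left r
      mul_mem' := by
        intro a b ha hb
        change (Ideal.absNorm (a * b)).Coprime r
        rw [map_mul]
        exact Nat.Coprime.mul_left ha hb }
  let Nm : Submonoid (Ideal (𝓞 E)) := S.map (Ideal.relNorm (𝓞 E)).toMonoidHom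
  have hNmem : ∀ n ∈ Nm, ∃ B : Ideal (𝓞 L), (Ideal.absNorm B).Coprime r ∧
      Ideal.relNorm (𝓞 E) B = n := by
    intro n hn
    obtain ⟨B, hB, rfl⟩ := Submonoid.mem_map.mp hn
    exact ⟨B, hB, rfl⟩
  have hNm : ∀ n ∈ Nm, IsCoprime n m := by
    intro n hn
    obtain ⟨B, hB, rfl⟩ := hNmem n hn
    apply cx_isCoprime_of_coprime_absNorm
    rwa [Ideal.absNorm_relNorm]
  obtain ⟨Q, iG, iF, cc, hmul, hone, hsurj, hray, hnm, huniv⟩ :=
    rc_exists_quotient_numberField E m hmtop hm0 Nm hNm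
  -- second inequality
  have hnorm : ∀ P : Ideal (𝓞 L), P.IsPrime → P ≠ ⊥ → IsCoprime (P.under (𝓞 E)) m →
      P.inertiaDeg (𝓞 E) = 1 → cc (P.under (𝓞 E)) = 1 := by
    intro P hP hP0 hPm hPf
    haveI := hP
    have hP0' : P.under (𝓞 E) ≠ ⊥ := am_under_ne_bot (F := E) P hP0
    haveI := am_isMaximal hP0
    haveI := am_isMaximal hP0'
    have h1 : Ideal.relNorm (𝓞 E) P = P.under (𝓞 E) := by
      rw [Ideal.relNorm_eq_pow_of_isMaximal P (P.under (𝓞 E)), hPf, pow_one]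
    apply hnm
    refine Submonoid.mem_map.mpr ⟨P, ?_, h1⟩
    change (Ideal.absNorm P).Coprime r
    rw [← Ideal.absNorm_relNorm (𝓞 E), h1]
    exact cx_coprime_absNorm_of_isCoprime hPm
  have hcardQ : Nat.card Q ≤ p :=
    (ry_second_inequality_modulus (↥L) m hm0 cc hone
      (fun a b ha hb => hmul a b (Ideal.isCoprime_iff_sup_eq.mpr ha)
        (Ideal.isCoprime_iff_sup_eq.mpr hb))
      (fun x => let ⟨a, ha, hx⟩ := hsurj x; ⟨a, Ideal.isCoprime_iff_sup_eq.mp ha, hx⟩)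
      (fun γ hγ _ => hray γ hγ)
      (fun P hP hP0 hPm hPf => hnorm P hP hP0 (Ideal.isCoprime_iff_sup_eq.mpr hPm) hPf)).trans
      (cx_finrank_E_L_le g nU (hexp g))
  -- the two monoid homs on the ideals prime to `r`
  let cM : (rc_coprimeSubmonoid m) →* Q :=
    { toFun := fun a => cc a.1
      map_one' := by
        change cc (1 : Ideal (𝓞 E)) = 1
        rw [Ideal.one_eq_top]; exact hone
      map_mul' := fun a b => hmul a.1 b.1 a.2 b.2 }
  have hfac : ∀ a b : rc_coprimeSubmonoid m, cM a = cM b → cxChi E r p a = cxChi E r p b := by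
    intro a b hab
    obtain ⟨g₁, g₂, hg₁0, hg₂0, hg₁, hg₂, n₁, hn₁, n₂, hn₂, heq⟩ := huniv a.1 b.1 a.2 b.2 hab
    obtain ⟨B₁, hB₁, rfl⟩ := hNmem n₁ hn₁
    obtain ⟨B₂, hB₂, rfl⟩ := hNmem n₂ hn₂
    obtain ⟨y₁, hy₁⟩ := cx_absNorm_span_ray (p := p) hpodd hg₁
    obtain ⟨y₂, hy₂⟩ := cx_absNorm_span_ray (p := p) hpodd hg₂
    obtain ⟨z₁, hz₁⟩ := cx_absNorm_L g nU B₁ hB₁
    obtain ⟨z₂, hz₂⟩ := cx_absNorm_L g nU B₂ hB₂
    have h1 := congrArg (fun I => ((Ideal.absNorm I : ℕ) : ZMod r)) heq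
    simp only [map_mul, Nat.cast_mul, Ideal.absNorm_relNorm] at h1
    rw [hy₁, hy₂, hz₁, hz₂] at h1
    apply cx_chi_eq_of_eq a b (y₁ * z₁) (y₂ * z₂)
    rw [Units.val_mul, Units.val_mul, mul_pow, mul_pow]
    linear_combination h1
  let a₁ : rc_coprimeSubmonoid m :=
    ⟨Q₁, cx_isCoprime_of_coprime_absNorm (by rw [hNQ₁]; exact hr1)⟩
  let a₂ : rc_coprimeSubmonoid m :=
    ⟨Q₂, cx_isCoprime_of_coprime_absNorm (by rw [hNQ₂]; exact hr2)⟩
  have hχ₁ : cxChi E r p a₁ = (QuotientGroup.mk nU : cxRr r p) ^ 1 := by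
    apply cx_chi_eq_pow a₁ nU 1 1
    change (Ideal.absNorm Q₁ : ZMod r) = _
    rw [hNQ₁, pow_one, Units.val_one, one_pow, mul_one, hnUc]
  have hχ₂ : cxChi E r p a₂ = (QuotientGroup.mk nU : cxRr r p) ^ c := by
    apply cx_chi_eq_pow a₂ nU xU c
    change (Ideal.absNorm Q₂ : ZMod r) = _
    rw [hNQ₂, hnUc, hx]; rfl
  rw [pow_one] at hχ₁
  have hne : cxChi E r p a₁ ≠ 1 := by
    rw [hχ₁]
    intro h
    rw [QuotientGroup.eq_one_iff] at h
    obtain ⟨y, hy⟩ := h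
    apply hnr
    refine ⟨(y : ZMod r), ?_⟩
    rw [← hnUc, ← hy]
    simp
  have hχ₂₁ : cxChi E r p a₂ = cxChi E r p a₁ ^ c := by rw [hχ₂, hχ₁]
  have key := cx_class_eq_pow (p := p) (R := cxRr r p) cM (cxChi E r p) hcardQ
    (fun x => cx_rr_pow p x) hfac a₁ a₂ hne c hχ₂₁
  rw [← map_pow] at key
  have hcop : IsCoprime (Q₁ ^ c) m := (a₁ ^ c).2
  obtain ⟨g₁, g₂, hg₁0, hg₂0, hg₁, hg₂, n₁, hn₁, n₂, hn₂, heq⟩ :=
    huniv Q₂ (Q₁ ^ c) a₂.2 hcop key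
  obtain ⟨B₁, hB₁, rfl⟩ := hNmem n₁ hn₁
  obtain ⟨B₂, hB₂, rfl⟩ := hNmem n₂ hn₂
  -- norm down to `F`
  have hdown := congrArg (Ideal.relNorm (𝓞 F)) heq
  simp only [map_mul, map_pow, Ideal.relNorm_singleton, hQ₁n, hQ₂n] at hdown
  rw [Ideal.relNorm_relNorm (𝓞 F) (𝓞 E) B₁, Ideal.relNorm_relNorm (𝓞 F) (𝓞 E) B₂,
    ← Ideal.relNorm_relNorm (𝓞 F) (𝓞 K) B₁, ← Ideal.relNorm_relNorm (𝓞 F) (𝓞 K) B₂] at hdown
  have hbot : ∀ B : Ideal (𝓞 L), (Ideal.absNorm B).Coprime r → B ≠ ⊥ := by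
    rintro B hB rfl
    rw [Ideal.absNorm_bot, Nat.coprime_zero_left] at hB
    exact hr.out.one_lt.ne' hB
  have hB₁0 : B₁ ≠ ⊥ := hbot B₁ hB₁
  have hB₂0 : B₂ ≠ ⊥ := hbot B₂ hB₂
  refine ⟨Algebra.intNorm (𝓞 F) (𝓞 E) g₁, Algebra.intNorm (𝓞 F) (𝓞 E) g₂,
    fun h => hg₁0 (Algebra.intNorm_eq_zero.mp h), fun h => hg₂0 (Algebra.intNorm_eq_zero.mp h),
    Ideal.relNorm (𝓞 K) B₁, Ideal.relNorm (𝓞 K) B₂, ?_, ?_, hdown⟩
  · rw [Ne, Ideal.relNorm_eq_bot_iff]; exact hB₁0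
  · rw [Ne, Ideal.relNorm_eq_bot_iff]; exact hB₂0

end cxMain

end Fermat.Agent.S14
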