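import Mathlib

/-!
# S14, crossing block: the abstract group theory

`I` is the monoid of nonzero integral ideals of `F`, generated by the set `P` of primes,
`ψ : I →* G` the Artin map of an unramified cyclic extension `K/F` of prime degree `p`,
`cl : I →* C` the class map and `Nsub ≤ C` the subgroup of norm classes.

* `cx_class_div_mem_of_artin_eq`: from the crossing statement for pairs of inert primes over
  distinct rational primes, `ψ a = ψ b → cl a / cl b ∈ Nsub` (i.e. `ker ψ ⊆ P_F · N(I_K)`).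
* `cx_artin_eq_one_of_class_eq_one`: together with `Nsub ≠ ⊤` (first inequality) this gives
  Artin reciprocity: principal ideals have trivial Artin symbol.
-/

set_option autoImplicit false

namespace Fermat.Agent.S14

section crGroup

variable {I G C : Type*} [CommMonoid I] [CommGroup G] [CommGroup C]

/-- In a group of prime order, every element is an integral power of a given nontrivial element. -/
lemma cx_exists_zpow_eq {p : ℕ} [Fact p.Prime] (hG : Nat.card G = p) {g : G} (hg : g ≠ 1)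
    (x : G) : ∃ k : ℤ, g ^ k = x := by
  have h := zpowers_eq_top_of_prime_card hG hg
  have hx : x ∈ Subgroup.zpowers g := by rw [h]; trivial
  exact Subgroup.mem_zpowers_iff.mp hx

/-- In a group of prime order `p`, `g ^ k = 1` for `g ≠ 1` forces `p ∣ k`. -/
lemma cx_dvd_of_zpow_eq_one {p : ℕ} [Fact p.Prime] (hG : Nat.card G = p) {g : G} (hg : g ≠ 1)
    {k : ℤ} (hk : g ^ k = 1) : (p : ℤ) ∣ k := by
  have h1 : orderOf g = p := by
    have h2 : orderOf g ∣ p := hG ▸ orderOf_dvd_natCard g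
    rcases (Nat.dvd_prime (Fact.out : p.Prime)).mp h2 with h3 | h3
    · exact absurd (orderOf_eq_one_iff.mp h3) hg
    · exact h3
  rw [← h1]
  exact orderOf_dvd_iff_zpow_eq_one.mpr hk

/-- A `p`-th power multiple lies in `Nsub` as soon as all `p`-th powers do. -/
lemma cx_zpow_mem_of_dvd {p : ℕ} (Nsub : Subgroup C) {x : C} (hx : x ^ p ∈ Nsub) {k : ℤ}
    (hk : (p : ℤ) ∣ k) : x ^ k ∈ Nsub := by
  obtain ⟨m, rfl⟩ := hk
  rw [zpow_mul, zpow_natCast]
  exact Nsub.zpow_mem hx m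

/-- **Crossing, abstract form.** If split primes are norms, `p`-th powers are norms, and the
crossing statement holds for pairs of inert primes over distinct rational primes, then two ideals
with the same Artin symbol have classes differing by a norm class. -/
theorem cx_class_div_mem_of_artin_eq {p : ℕ} [Fact p.Prime] (hG : Nat.card G = p)
    (ψ : I →* G) (cl : I →* C) (Nsub : Subgroup C) (P : Set I)
    (hP : Submonoid.closure P = ⊤) (ℓ : I → ℕ)
    (h1 : ∀ q ∈ P, ψ q = 1 → cl q ∈ Nsub)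
    (h2 : ∀ a : I, cl a ^ p ∈ Nsub)
    (h3 : ∀ q₁ ∈ P, ∀ q₂ ∈ P, ψ q₁ ≠ 1 → ψ q₂ ≠ 1 → ℓ q₁ ≠ ℓ q₂ → ∀ c : ℕ,
      ψ q₂ = ψ q₁ ^ c → cl q₂ / cl q₁ ^ c ∈ Nsub)
    (h4 : ∀ n : ℕ, ∃ q ∈ P, ψ q ≠ 1 ∧ ℓ q ≠ n) :
    ∀ a b : I, ψ a = ψ b → cl a / cl b ∈ Nsub := by
  obtain ⟨q₀, hq₀P, hq₀, -⟩ := h4 0
  set g₀ := ψ q₀ with hg₀
  -- integer-exponent version of `h3`
  have h3' : ∀ q₁ ∈ P, ∀ q₂ ∈ P, ψ q₁ ≠ 1 → ψ q₂ ≠ 1 → ℓ q₁ ≠ ℓ q₂ → ∀ c : ℤ,
      ψ q₂ = ψ q₁ ^ c → cl q₂ * (cl q₁ ^ c)⁻¹ ∈ Nsub := by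
    intro q₁ hq₁ q₂ hq₂ hn₁ hn₂ hl c hc
    have hp0 : (p : ℤ) ≠ 0 := by exact_mod_cast (Fact.out : p.Prime).ne_zero
    have hc0 : 0 ≤ c % (p : ℤ) := Int.emod_nonneg c hp0
    obtain ⟨m, hm⟩ := Int.eq_ofNat_of_zero_le hc0
    have hcm : c = (m : ℤ) + (p : ℤ) * (c / p) := by
      rw [← hm]; exact (Int.emod_add_mul_ediv c p).symm
    have hpow : ψ q₁ ^ (p : ℤ) = 1 := by
      rw [zpow_natCast, ← hG]; exact pow_card_eq_one'
    have h5 : ψ q₂ = ψ q₁ ^ m := by
      rw [hc, hcm, zpow_add, zpow_mul, hpow, one_zpow, mul_one, zpow_natCast]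
    have h6 := h3 q₁ hq₁ q₂ hq₂ hn₁ hn₂ hl m h5
    have h7 : cl q₂ * (cl q₁ ^ c)⁻¹ =
        (cl q₂ / cl q₁ ^ m) * ((cl q₁) ^ (-((p : ℤ) * (c / p)))) := by
      rw [hcm, zpow_add, zpow_neg, zpow_natCast, div_eq_mul_inv, mul_inv, mul_assoc]
      congr 2
      rw [← hcm]
    rw [h7]
    exact Nsub.mul_mem h6 (cx_zpow_mem_of_dvd Nsub (h2 q₁) (Dvd.dvd.neg_right ⟨_, rfl⟩))
  -- the key statement for generators
  have key : ∀ a : I, ∀ c : ℤ, ψ a = g₀ ^ c → cl a * (cl q₀ ^ c)⁻¹ ∈ Nsub := by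
    intro a
    have ha : a ∈ Submonoid.closure P := by rw [hP]; trivial
    induction ha using Submonoid.closure_induction with
    | one =>
      intro c hc
      rw [map_one] at hc
      rw [map_one, one_mul, ← zpow_neg]
      exact cx_zpow_mem_of_dvd Nsub (h2 q₀)
        (Dvd.dvd.neg_right (cx_dvd_of_zpow_eq_one hG hq₀ hc.symm))
    | mul x y _ _ hx hy =>
      intro c hc
      obtain ⟨cx, hcx⟩ := cx_exists_zpow_eq hG hq₀ (ψ x)
      obtain ⟨cy, hcy⟩ := cx_exists_zpow_eq hG hq₀ (ψ y)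
      have hdvd : (p : ℤ) ∣ cx + cy - c := by
        apply cx_dvd_of_zpow_eq_one hG hq₀
        rw [zpow_sub, zpow_add, hcx, hcy, ← hc, map_mul, mul_inv_cancel]
      have h5 : cl (x * y) * (cl q₀ ^ c)⁻¹ =
          (cl x * (cl q₀ ^ cx)⁻¹) * (cl y * (cl q₀ ^ cy)⁻¹) * cl q₀ ^ (cx + cy - c) := by
        rw [map_mul, zpow_sub, zpow_add]
        have : ∀ u v a b d : C, u * v * d⁻¹ = u * a⁻¹ * (v * b⁻¹) * (a * b * d⁻¹) := by
          intro u v a b d
          rw [show u * a⁻¹ * (v * b⁻¹) * (a * b * d⁻¹) =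
            u * v * d⁻¹ * (a * a⁻¹) * (b * b⁻¹) by
              simp only [mul_comm, mul_left_comm, mul_assoc]]
          rw [mul_inv_cancel, mul_inv_cancel, mul_one, mul_one]
        exact this _ _ _ _ _
      rw [h5]
      exact Nsub.mul_mem (Nsub.mul_mem (hx cx hcx.symm) (hy cy hcy.symm))
        (cx_zpow_mem_of_dvd Nsub (h2 q₀) hdvd)
    | mem q hq =>
      intro c hc
      by_cases hq1 : ψ q = 1
      · -- split prime
        have hdvd : (p : ℤ) ∣ c := cx_dvd_of_zpow_eq_one hG hq₀ (by rw [← hc, hq1])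
        rw [← zpow_neg]
        exact Nsub.mul_mem (h1 q hq hq1)
          (cx_zpow_mem_of_dvd Nsub (h2 q₀) (Dvd.dvd.neg_right hdvd))
      · by_cases hl : ℓ q₀ ≠ ℓ q
        · exact h3' q₀ hq₀P q hq hq₀ hq1 hl c hc
        · -- go through a third prime
          rw [not_not] at hl
          obtain ⟨q₃, hq₃P, hq₃, hl₃⟩ := h4 (ℓ q₀)
          obtain ⟨c₃, hc₃⟩ := cx_exists_zpow_eq hG hq₀ (ψ q₃)
          obtain ⟨d, hd⟩ := cx_exists_zpow_eq hG hq₃ (ψ q)
          have hA := h3' q₀ hq₀P q₃ hq₃P hq₀ hq₃ (Ne.symm hl₃) c₃ hc₃.symm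
          have hB := h3' q₃ hq₃P q hq hq₃ hq1 (by rw [← hl]; exact hl₃) d hd.symm
          have hdvd : (p : ℤ) ∣ c₃ * d - c := by
            apply cx_dvd_of_zpow_eq_one hG hq₀
            rw [zpow_sub, zpow_mul, hc₃, hd, hc, mul_inv_cancel]
          have h5 : cl q * (cl q₀ ^ c)⁻¹ =
              (cl q * (cl q₃ ^ d)⁻¹) * (cl q₃ * (cl q₀ ^ c₃)⁻¹) ^ d * cl q₀ ^ (c₃ * d - c) := by
            rw [mul_zpow, zpow_sub, zpow_mul, inv_zpow]
            have : ∀ u a b d : C, u * d⁻¹ = u * a⁻¹ * (a * b⁻¹) * (b * d⁻¹) := by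
              intro u a b d
              rw [show u * a⁻¹ * (a * b⁻¹) * (b * d⁻¹) = u * d⁻¹ * (a * a⁻¹) * (b * b⁻¹) by
                simp only [mul_comm, mul_left_comm, mul_assoc]]
              rw [mul_inv_cancel, mul_inv_cancel, mul_one, mul_one]
            exact this _ _ _ _
          rw [h5]
          exact Nsub.mul_mem (Nsub.mul_mem hB (Nsub.zpow_mem hA d))
            (cx_zpow_mem_of_dvd Nsub (h2 q₀) hdvd)
  intro a b hab
  obtain ⟨c, hc⟩ := cx_exists_zpow_eq hG hq₀ (ψ a)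
  have hA := key a c hc.symm
  have hB := key b c (by rw [← hab]; exact hc.symm)
  have h5 : cl a / cl b = (cl a * (cl q₀ ^ c)⁻¹) * (cl b * (cl q₀ ^ c)⁻¹)⁻¹ := by
    rw [mul_inv, inv_inv, div_eq_mul_inv]
    have : ∀ u v w : C, u * v⁻¹ = u * w⁻¹ * (v⁻¹ * w) := by
      intro u v w
      rw [show u * w⁻¹ * (v⁻¹ * w) = u * v⁻¹ * (w * w⁻¹) by
        simp only [mul_comm, mul_left_comm, mul_assoc]]
      rw [mul_inv_cancel, mul_one]
    exact this _ _ _
  rw [h5]
  exact Nsub.mul_mem hA (Nsub.inv_mem hB)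

/-- **Artin reciprocity from the inequalities, abstract form.** If the norm classes do not
exhaust the class group (first inequality), the Artin map is nontrivial, and ideals with the
same Artin symbol differ by a norm class (crossing), then ideals with trivial class have
trivial Artin symbol. -/
theorem cx_artin_eq_one_of_class_eq_one {p : ℕ} [Fact p.Prime] (hG : Nat.card G = p)
    (ψ : I →* G) (cl : I →* C) (Nsub : Subgroup C) (hcl : Function.Surjective cl)
    (hN : Nsub ≠ ⊤) (hc : ∀ a b : I, ψ a = ψ b → cl a / cl b ∈ Nsub) :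
    ∀ a : I, cl a = 1 → ψ a = 1 := by
  intro a ha
  by_contra hne
  apply hN
  rw [eq_top_iff]
  intro x _
  obtain ⟨b, rfl⟩ := hcl x
  obtain ⟨k, hk⟩ := cx_exists_zpow_eq hG hne (ψ b)
  have hp0 : (p : ℤ) ≠ 0 := by exact_mod_cast (Fact.out : p.Prime).ne_zero
  have hk0 : 0 ≤ k % (p : ℤ) := Int.emod_nonneg k hp0
  obtain ⟨m, hm⟩ := Int.eq_ofNat_of_zero_le hk0
  have hkm : k = (m : ℤ) + (p : ℤ) * (k / p) := by
    rw [← hm]; exact (Int.emod_add_mul_ediv k p).symm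
  have hpow : ψ a ^ (p : ℤ) = 1 := by
    rw [zpow_natCast, ← hG]; exact pow_card_eq_one'
  have h5 : ψ b = ψ (a ^ m) := by
    rw [map_pow, ← hk, hkm, zpow_add, zpow_mul, hpow, one_zpow, mul_one, zpow_natCast]
  have h6 := hc b (a ^ m) h5
  rwa [map_pow, ha, one_pow, div_one] at h6

end crGroup

end Fermat.Agent.S14
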