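import Mathlib
import Fermat.Agent.S14.Cross.Group
import Fermat.Agent.S14.Cross.Crossing
import Fermat.Agent.S14.AuxPrime.Final
import Fermat.Agent.S14.FirstIneq.ClassAction
import Fermat.Agent.S14.FirstIneq.Main

/-!
# S14, crossing block: Artin reciprocity `(R)` for unramified cyclic extensions of prime degree

From the crossing lemma (`cx_crossing`), the auxiliary primes (`ax_exists_crossing_prime'`),
the density of non-split primes (`dn_infinite_not_split`) and the first inequality (hypothesis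
`hFI`), the Artin map of `K/F` kills the principal ideals.
-/

open NumberField IsDedekindDomain
open scoped nonZeroDivisors

namespace Fermat.Agent.S14

set_option linter.style.haveILetI false
set_option linter.unusedSectionVars false

universe u

section cxPrimeNorm

variable {F : Type*} [Field F] [NumberField F]

/-- The norm of a nonzero prime ideal is a prime power `ℓ ^ f` with `0 < f ≤ [F : ℚ]`. -/
theorem cx_absNorm_prime_eq_pow (q : Ideal (𝓞 F)) [hq : q.IsPrime] (hq0 : q ≠ ⊥) :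
    ∃ l f : ℕ, l.Prime ∧ 0 < f ∧ f ≤ Module.finrank ℚ F ∧ Ideal.absNorm q = l ^ f := by
  haveI := am_isMaximal hq0
  haveI : Finite (𝓞 F ⧸ q) := am_finite_quotient F hq0
  haveI : Fintype (𝓞 F ⧸ q) := Fintype.ofFinite _
  letI : Field (𝓞 F ⧸ q) := Ideal.Quotient.field q
  obtain ⟨l, hl⟩ := CharP.exists (𝓞 F ⧸ q)
  obtain ⟨f, hlp, hcard⟩ := FiniteField.card (𝓞 F ⧸ q) l
  have hN : Ideal.absNorm q = l ^ (f : ℕ) := by
    rw [Ideal.absNorm_apply, Submodule.cardQuot_apply, Nat.card_eq_fintype_card, hcard]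
  refine ⟨l, f, hlp, f.pos, ?_, hN⟩
  have hmem : (l : 𝓞 F) ∈ q := by
    rw [← Ideal.Quotient.eq_zero_iff_mem, map_natCast]
    exact CharP.cast_eq_zero _ l
  have hle : Ideal.span {(l : 𝓞 F)} ≤ q := (Ideal.span_singleton_le_iff_mem q).mpr hmem
  have hdvd := Ideal.absNorm_dvd_absNorm_of_le hle
  rw [hN, Ideal.absNorm_span_singleton] at hdvd
  have h2 : Algebra.norm ℤ (l : 𝓞 F) = (l : ℤ) ^ Module.finrank ℤ (𝓞 F) := by
    have := Algebra.norm_algebraMap (R := ℤ) (S := 𝓞 F) (l : ℤ)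
    simpa using this
  rw [h2, Int.natAbs_pow, Int.natAbs_natCast, RingOfIntegers.rank] at hdvd
  exact (Nat.pow_dvd_pow_iff_le_right hlp.one_lt).mp hdvd

end cxPrimeNorm

section cxRecip

open scoped IsMulCommutative

variable {F : Type*} {K : Type u} [Field F] [NumberField F] [Field K] [NumberField K]
  [Algebra F K] [IsGalois F K] [IsMulCommutative Gal(K/F)]

/-- The set of prime elements of the monoid of nonzero ideals generates it. -/
theorem cx_closure_primes_eq_top :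
    Submonoid.closure {q : (Ideal (𝓞 F))⁰ | (q : Ideal (𝓞 F)).IsPrime} = ⊤ := by
  rw [eq_top_iff]
  rintro ⟨I, hI⟩ -
  have hI0 : I ≠ ⊥ := nonZeroDivisors.ne_zero hI
  induction I using UniqueFactorizationMonoid.induction_on_prime with
  | h₁ => exact absurd rfl hI0
  | h₂ x hx =>
    have : x = 1 := by rwa [Ideal.isUnit_iff, ← Ideal.one_eq_top] at hx
    subst this
    exact Submonoid.one_mem _
  | h₃ a q ha0 hq ih =>
    have hq0 : q ≠ ⊥ := hq.ne_zero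
    have hqm : q ∈ (Ideal (𝓞 F))⁰ := mem_nonZeroDivisors_iff_ne_zero.mpr hq0
    have ham : a ∈ (Ideal (𝓞 F))⁰ := mem_nonZeroDivisors_iff_ne_zero.mpr ha0
    have h1 : (⟨q * a, hI⟩ : (Ideal (𝓞 F))⁰) = ⟨q, hqm⟩ * ⟨a, ham⟩ := rfl
    rw [h1]
    refine Submonoid.mul_mem _ (Submonoid.subset_closure ?_) (ih ham ha0)
    exact Ideal.isPrime_of_prime hq

/-- The rational prime under a prime ideal, read off from its norm. -/
noncomputable def cxEll (q : (Ideal (𝓞 F))⁰) : ℕ := (Ideal.absNorm (q : Ideal (𝓞 F))).minFac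

theorem cx_ell_eq {q : (Ideal (𝓞 F))⁰} {l f : ℕ} (hl : l.Prime) (hf : 0 < f)
    (h : Ideal.absNorm (q : Ideal (𝓞 F)) = l ^ f) : cxEll q = l := by
  rw [cxEll, h, hl.pow_minFac hf.ne']

/-- **Artin reciprocity `(R)`** for an everywhere unramified Galois extension `K/F` of odd prime
degree `p` (with `[F : ℚ] < p`), assuming the first inequality `hFI`. -/
theorem cx_reciprocity {p : ℕ} [hp : Fact p.Prime] (hp2 : p ≠ 2)
    (hF : Module.finrank ℚ F < p) (hdeg : Module.finrank F K = p)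
    (hunr : ∀ q : Ideal (𝓞 F), q ≠ ⊥ → am_Unram F K q)
    (hFI : ∃ 𝔟 : Ideal (𝓞 F), 𝔟 ≠ ⊥ ∧ ∀ (α β : 𝓞 F) (𝔄 : Ideal (𝓞 K)), α ≠ 0 → β ≠ 0 → 𝔄 ≠ ⊥ →
      Ideal.span {α} * 𝔟 ≠ Ideal.span {β} * Ideal.relNorm (𝓞 F) 𝔄) :
    ∀ α : 𝓞 F, α ≠ 0 → am_artinFun F K (Ideal.span {α}) = 1 := by
  have hcard : Nat.card Gal(K/F) = p := by rw [IsGalois.card_aut_eq_finrank, hdeg]
  have hexp : ∀ g : Gal(K/F), g ^ p = 1 := by
    intro g
    have := pow_card_eq_one' (G := Gal(K/F)) (x := g)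
    rwa [hcard] at this
  set Nsub : Subgroup (ClassGroup (𝓞 F)) := (fi_clNorm (F := F) (K := K)).range with hNsub
  have hmemN : ∀ A : (Ideal (𝓞 K))⁰, ClassGroup.mk0 (fi_idealNorm (F := F) A) ∈ Nsub := by
    intro A
    exact ⟨ClassGroup.mk0 A, fi_clNorm_mk0 A⟩
  -- h1: split primes are norms
  have h1 : ∀ q ∈ {q : (Ideal (𝓞 F))⁰ | (q : Ideal (𝓞 F)).IsPrime},
      am_artin F K q = 1 → ClassGroup.mk0 q ∈ Nsub := by
    rintro ⟨q, hqm⟩ hq hψ
    have hq' : q.IsPrime := hq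
    haveI := hq'
    have hq0 : q ≠ ⊥ := nonZeroDivisors.ne_zero hqm
    rw [am_artin_apply, am_artinFun_prime q hq0] at hψ
    obtain ⟨Q, hQ, hQq, hQ0⟩ := am_exists_prime_over K q hq0
    haveI := hQ
    haveI := hQq
    have hf : Q.inertiaDeg (𝓞 F) = 1 := (am_frob_eq_one_iff hq0 (hunr q hq0) Q).mp hψ
    have hQm : Q ∈ (Ideal (𝓞 K))⁰ := mem_nonZeroDivisors_iff_ne_zero.mpr hQ0
    have h2 := hmemN ⟨Q, hQm⟩
    convert h2 using 2
    apply Subtype.ext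
    rw [fi_idealNorm_coe, am_relNorm_prime Q hQ0, hf, pow_one]
    exact hQq.over
  -- h2: p-th powers are norms
  have h2 : ∀ a : (Ideal (𝓞 F))⁰, ClassGroup.mk0 a ^ p ∈ Nsub := by
    intro a
    refine ⟨fi_clExt (K := K) (ClassGroup.mk0 a), ?_⟩
    rw [fi_clNorm_clExt, hdeg]
  -- h3: the crossing
  have h3 : ∀ q₁ ∈ {q : (Ideal (𝓞 F))⁰ | (q : Ideal (𝓞 F)).IsPrime},
      ∀ q₂ ∈ {q : (Ideal (𝓞 F))⁰ | (q : Ideal (𝓞 F)).IsPrime},
      am_artin F K q₁ ≠ 1 → am_artin F K q₂ ≠ 1 → cxEll q₁ ≠ cxEll q₂ → ∀ c : ℕ,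
      am_artin F K q₂ = am_artin F K q₁ ^ c →
      ClassGroup.mk0 q₂ / ClassGroup.mk0 q₁ ^ c ∈ Nsub := by
    rintro ⟨q₁, hq₁m⟩ hq₁ ⟨q₂, hq₂m⟩ hq₂ - - hell c hψ
    have hq₁' : q₁.IsPrime := hq₁
    have hq₂' : q₂.IsPrime := hq₂
    haveI := hq₁'
    haveI := hq₂'
    have h10 : q₁ ≠ ⊥ := nonZeroDivisors.ne_zero hq₁m
    have h20 : q₂ ≠ ⊥ := nonZeroDivisors.ne_zero hq₂m
    rw [am_artin_apply, am_artin_apply, am_artinFun_prime q₁ h10, am_artinFun_prime q₂ h20] at hψ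
    obtain ⟨l₁, f₁, hl₁, hf₁, hf₁le, hN₁⟩ := cx_absNorm_prime_eq_pow q₁ h10
    obtain ⟨l₂, f₂, hl₂, hf₂, hf₂le, hN₂⟩ := cx_absNorm_prime_eq_pow q₂ h20
    have hne : l₁ ≠ l₂ := by
      intro h
      apply hell
      rw [cx_ell_eq (q := ⟨q₁, hq₁m⟩) hl₁ hf₁ hN₁, cx_ell_eq (q := ⟨q₂, hq₂m⟩) hl₂ hf₂ hN₂, h]
    have hpf₁ : ¬ p ∣ f₁ := fun h => by
      have := Nat.le_of_dvd hf₁ h
      omega
    have hpf₂ : ¬ p ∣ f₂ := fun h => by
      have := Nat.le_of_dvd hf₂ h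
      omega
    obtain ⟨r, hr, -, -, hrl₁, hrl₂, hnr, x, hx0, hx⟩ :=
      ax_exists_crossing_prime' p l₁ l₂ hl₁ hl₂ hne f₁ f₂ hpf₁ hpf₂ c ∅
    haveI : Fact r.Prime := ⟨hr⟩
    have hr1 : (Ideal.absNorm q₁).Coprime r := by
      rw [hN₁]
      exact Nat.Coprime.pow_left _ ((Nat.coprime_primes hl₁ hr).mpr (Ne.symm hrl₁))
    have hr2 : (Ideal.absNorm q₂).Coprime r := by
      rw [hN₂]
      exact Nat.Coprime.pow_left _ ((Nat.coprime_primes hl₂ hr).mpr (Ne.symm hrl₂))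
    rw [← hN₁] at hnr hx
    rw [← hN₂] at hx
    obtain ⟨α, β, hα, hβ, A₁, A₂, hA₁, hA₂, heq⟩ := cx_crossing hp2 hexp
      (fun q _ hq0 => hunr q hq0) q₁ q₂ h10 h20 c hψ r hr1 hr2 hnr x hx0 hx
    have hA₁m : A₁ ∈ (Ideal (𝓞 K))⁰ := mem_nonZeroDivisors_iff_ne_zero.mpr hA₁
    have hA₂m : A₂ ∈ (Ideal (𝓞 K))⁰ := mem_nonZeroDivisors_iff_ne_zero.mpr hA₂
    have hαm : Ideal.span {α} ∈ (Ideal (𝓞 F))⁰ := by
      rw [mem_nonZeroDivisors_iff_ne_zero, Ne, Ideal.zero_eq_bot, Ideal.span_singleton_eq_bot]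
      exact hα
    have hβm : Ideal.span {β} ∈ (Ideal (𝓞 F))⁰ := by
      rw [mem_nonZeroDivisors_iff_ne_zero, Ne, Ideal.zero_eq_bot, Ideal.span_singleton_eq_bot]
      exact hβ
    have heq' : (⟨Ideal.span {α}, hαm⟩ : (Ideal (𝓞 F))⁰) * ⟨q₂, hq₂m⟩ *
        fi_idealNorm (F := F) ⟨A₁, hA₁m⟩ =
        ⟨Ideal.span {β}, hβm⟩ * ⟨q₁, hq₁m⟩ ^ c * fi_idealNorm (F := F) ⟨A₂, hA₂m⟩ := by
      apply Subtype.ext
      simpa using heq
    have h4 := congrArg (ClassGroup.mk0 (R := 𝓞 F)) heq'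
    rw [map_mul, map_mul, map_mul, map_mul, map_pow,
      (ClassGroup.mk0_eq_one_iff hαm).mpr ⟨α, rfl⟩,
      (ClassGroup.mk0_eq_one_iff hβm).mpr ⟨β, rfl⟩, one_mul, one_mul] at h4
    have h5 : ClassGroup.mk0 ⟨q₂, hq₂m⟩ / ClassGroup.mk0 ⟨q₁, hq₁m⟩ ^ c =
        ClassGroup.mk0 (fi_idealNorm (F := F) ⟨A₂, hA₂m⟩) *
          (ClassGroup.mk0 (fi_idealNorm (F := F) ⟨A₁, hA₁m⟩))⁻¹ := by
      have h6 := eq_mul_inv_of_mul_eq h4
      rw [div_eq_iff_eq_mul, h6, mul_assoc]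
      exact mul_comm _ _
    rw [h5]
    exact Nsub.mul_mem (hmemN _) (Nsub.inv_mem (hmemN _))
  -- h4: inert primes over infinitely many rational primes
  have h4 : ∀ n : ℕ, ∃ q ∈ {q : (Ideal (𝓞 F))⁰ | (q : Ideal (𝓞 F)).IsPrime},
      am_artin F K q ≠ 1 ∧ cxEll q ≠ n := by
    intro n
    have hinf := dn_infinite_not_split (k := F) K (by rw [hdeg]; exact hp.out.one_lt)
    have hfin : {v : HeightOneSpectrum (𝓞 F) | Ideal.absNorm v.asIdeal = n}.Finite := by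
      refine Set.Finite.of_finite_image (f := HeightOneSpectrum.asIdeal)
        ((Ideal.finite_setOfPred_absNorm_eq n).subset ?_)
        (fun a _ b _ h ↦ HeightOneSpectrum.ext h)
      rintro _ ⟨v, hv, rfl⟩
      exact hv
    obtain ⟨v, ⟨hvprime, hvsplit, hvram⟩, hvn⟩ := (hinf.sdiff hfin).nonempty
    haveI hq : v.asIdeal.IsPrime := v.isPrime
    have hq0 : v.asIdeal ≠ ⊥ := v.ne_bot
    have hvm : v.asIdeal ∈ (Ideal (𝓞 F))⁰ := mem_nonZeroDivisors_iff_ne_zero.mpr hq0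
    refine ⟨⟨v.asIdeal, hvm⟩, hq, ?_, ?_⟩
    · rw [am_artin_apply, am_artinFun_prime _ hq0]
      intro key
      obtain ⟨Q, hQ, hQq, hQ0⟩ := am_exists_prime_over K v.asIdeal hq0
      haveI := hQ
      haveI := hQq
      have hf : Q.inertiaDeg (𝓞 F) = 1 := (am_frob_eq_one_iff hq0 (hunr _ hq0) Q).mp key
      apply hvsplit
      refine ⟨?_, ?_⟩
      · by_contra h
        exact hvram h
      · rw [Ideal.inertiaDegIn_eq_inertiaDeg v.asIdeal Q Gal(K/F)]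
        exact hf
    · have h5 : cxEll ⟨v.asIdeal, hvm⟩ = Ideal.absNorm v.asIdeal := by
        rw [cxEll]
        exact (Nat.prime_def_minFac.mp hvprime).2
      rw [h5]
      exact hvn
  -- the first inequality
  have hN : Nsub ≠ ⊤ := by
    intro htop
    obtain ⟨𝔟, h𝔟0, h𝔟⟩ := hFI
    have h𝔟m : 𝔟 ∈ (Ideal (𝓞 F))⁰ := mem_nonZeroDivisors_iff_ne_zero.mpr h𝔟0
    have hmem : ClassGroup.mk0 ⟨𝔟, h𝔟m⟩ ∈ Nsub := by rw [htop]; trivial
    obtain ⟨cK, hcK⟩ := hmem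
    obtain ⟨A, rfl⟩ := ClassGroup.mk0_surjective cK
    rw [fi_clNorm_mk0, ClassGroup.mk0_eq_mk0_iff] at hcK
    obtain ⟨x, y, hx, hy, hxy⟩ := hcK
    rw [fi_idealNorm_coe] at hxy
    exact h𝔟 y x A.1 hy hx (nonZeroDivisors.ne_zero A.2) hxy.symm
  -- conclusion
  have hcross := cx_class_div_mem_of_artin_eq hcard (am_artin F K) (ClassGroup.mk0 (R := 𝓞 F))
    Nsub {q : (Ideal (𝓞 F))⁰ | (q : Ideal (𝓞 F)).IsPrime} cx_closure_primes_eq_top cxEll
    h1 h2 h3 h4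
  have hrec := cx_artin_eq_one_of_class_eq_one hcard (am_artin F K)
    (ClassGroup.mk0 (R := 𝓞 F)) Nsub ClassGroup.mk0_surjective hN hcross
  intro α hα
  have hαm : Ideal.span {α} ∈ (Ideal (𝓞 F))⁰ := by
    rw [mem_nonZeroDivisors_iff_ne_zero, Ne, Ideal.zero_eq_bot, Ideal.span_singleton_eq_bot]
    exact hα
  have := hrec ⟨Ideal.span {α}, hαm⟩ ((ClassGroup.mk0_eq_one_iff hαm).mpr ⟨α, rfl⟩)
  rwa [am_artin_apply] at this

/-- **Artin reciprocity `(R)`**, unconditionally: for an everywhere unramified Galois extension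
`K/F` of odd prime degree `p` with `[F : ℚ] < p`, the Artin map kills the principal ideals. -/
theorem cx_reciprocity' {p : ℕ} [hp : Fact p.Prime] (hp2 : p ≠ 2)
    (hF : Module.finrank ℚ F < p) (hdeg : Module.finrank F K = p)
    (hunr : ∀ q : Ideal (𝓞 F), q ≠ ⊥ → am_Unram F K q) :
    ∀ α : 𝓞 F, α ≠ 0 → am_artinFun F K (Ideal.span {α}) = 1 := by
  refine cx_reciprocity hp2 hF hdeg hunr (fi_first_inequality' p hp2 hdeg ?_)
  intro P hP hP0
  haveI := hP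
  exact hunr (P.under (𝓞 F)) (am_under_ne_bot P hP0) P hP ⟨rfl⟩

end cxRecip
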