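import Mathlib
import Fermat.Agent.S14.Cross.Reciprocity
import Fermat.Agent.S14.Final

/-!
# S14: the reciprocity oracle of `Final.lean` is a theorem
-/

open NumberField

namespace Fermat.Agent.S14

/-- **Reciprocity** for `F = ℚ(ζ_p)` and `K/F` Galois of degree `p`, unramified everywhere. -/
theorem cx_fnReciprocity {p : ℕ} [hp : Fact p.Prime] (h3 : 3 ≤ p) : fnReciprocity p := by
  intro F K _ _ _ _ _ _ _ _ _ hdeg hunr
  have hp2 : p ≠ 2 := by omega
  have hF : Module.finrank ℚ F < p := by
    have : NeZero p := ⟨hp.out.ne_zero⟩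
    rw [IsCyclotomicExtension.finrank F (Polynomial.cyclotomic.irreducible_rat hp.out.pos),
      Nat.totient_prime hp.out]
    have := hp.out.pos
    omega
  exact cx_reciprocity' hp2 hF hdeg hunr

/-- The number field statement consumed by the Galois reduction. -/
theorem cx_nf_statement {p : ℕ} [Fact p.Prime] (h3 : 3 ≤ p) : Reduction.NFStatement p :=
  nf_statement_of_reciprocity h3 (cx_fnReciprocity h3)

end Fermat.Agent.S14
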