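import Mathlib

/-!
# S14 library: Galois theory of the crossing step

`L/F` finite Galois, `K M : IntermediateField F L` normal over `F` of prime degree `p`, `K ≠ M`,
`K ⊔ M = ⊤`.  Then `[L:F] = p²`, `Gal(L/F)` is abelian, and for `φ ∈ Gal(L/F)` with both
restrictions nontrivial, `E := fixedField ⟨φ⟩` has `[E:F] = p = [L:E]`, is normal over `F`,
`K ⊔ E = ⊤ = E ⊔ M`, `K ⊓ E = ⊥ = E ⊓ M`, and restriction `⟨φ⟩ → Gal(K/F)` is bijective.
-/

set_option linter.unusedSectionVars false

namespace Fermat.Agent.S14

open IntermediateField Module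

section general

variable {F L : Type*} [Field F] [Field L] [Algebra F L]

/-- Two distinct intermediate fields of the same prime degree meet trivially. -/
theorem cp_inf_eq_bot [FiniteDimensional F L] {p : ℕ} (hp : p.Prime)
    {K M : IntermediateField F L} (hK : finrank F K = p) (hM : finrank F M = p) (hne : K ≠ M) :
    K ⊓ M = ⊥ := by
  have hle : K ⊓ M ≤ K := inf_le_left
  have hdvd : finrank F ↥(K ⊓ M) ∣ p := by
    rw [← hK]
    exact IntermediateField.finrank_dvd_of_le_right hle
  rcases (Nat.dvd_prime hp).mp hdvd with h1 | h1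
  · exact IntermediateField.finrank_eq_one_iff.mp h1
  · exfalso
    have e1 : K ⊓ M = K := IntermediateField.eq_of_le_of_finrank_eq hle (by rw [h1, hK])
    have hKM : K ≤ M := by rw [← e1]; exact inf_le_right
    exact hne (IntermediateField.eq_of_le_of_finrank_eq hKM (by rw [hK, hM]))

/-- A group of prime order is commutative (element-wise form). -/
theorem cp_mul_comm_of_card_prime {G : Type*} [Group G] {p : ℕ} [hp : Fact p.Prime]
    (h : Nat.card G = p) (a b : G) : a * b = b * a := by
  have := isCyclic_of_prime_card h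
  let _ := IsCyclic.commGroup (α := G)
  exact mul_comm a b

theorem cp_pow_eq_one_of_card_prime {G : Type*} [Group G] {p : ℕ}
    (h : Nat.card G = p) (a : G) : a ^ p = 1 := by
  rw [← h]; exact pow_card_eq_one'

end general

section compositum

variable {F L : Type*} [Field F] [Field L] [Algebra F L] [FiniteDimensional F L] [IsGalois F L]
variable {p : ℕ} [hp : Fact p.Prime]
variable (K M : IntermediateField F L) [Normal F K] [Normal F M]

/-- The hypotheses of the crossing configuration. -/
structure CrossData (p : ℕ) (K M : IntermediateField F L) : Prop where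
  finrank_left : finrank F K = p
  finrank_right : finrank F M = p
  ne : K ≠ M
  sup_eq_top : K ⊔ M = ⊤

variable {K M}

omit [FiniteDimensional F L] [IsGalois F L] [Normal F M] in
theorem cp_card_gal_left [FiniteDimensional F K] [IsGalois F K] (h : finrank F K = p) :
    Nat.card (K ≃ₐ[F] K) = p := by
  rw [IsGalois.card_aut_eq_finrank, h]

include hp in
/-- The pair of restrictions is injective on `Gal(L/F)`. -/
theorem cp_restrict_injective (h : CrossData (F := F) (L := L) p K M) {σ τ : L ≃ₐ[F] L}
    (hK : AlgEquiv.restrictNormalHom K σ = AlgEquiv.restrictNormalHom K τ)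
    (hM : AlgEquiv.restrictNormalHom M σ = AlgEquiv.restrictNormalHom M τ) : σ = τ := by
  have h1 : σ⁻¹ * τ ∈ K.fixingSubgroup := by
    rw [← K.restrictNormalHom_ker, MonoidHom.mem_ker, map_mul, map_inv, hK, inv_mul_cancel]
  have h2 : σ⁻¹ * τ ∈ M.fixingSubgroup := by
    rw [← M.restrictNormalHom_ker, MonoidHom.mem_ker, map_mul, map_inv, hM, inv_mul_cancel]
  have h3 : σ⁻¹ * τ ∈ (K ⊔ M).fixingSubgroup := by
    rw [IntermediateField.fixingSubgroup_sup]; exact ⟨h1, h2⟩
  rw [h.sup_eq_top, IntermediateField.fixingSubgroup_top, Subgroup.mem_bot] at h3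
  exact (inv_mul_eq_one.mp h3)

omit [Normal F K] [Normal F M] in
theorem cp_isGalois_sub (K : IntermediateField F L) [Normal F K] : IsGalois F K :=
  { to_isSeparable := Algebra.isSeparable_tower_bot_of_isSeparable F K L
    to_normal := inferInstance }

include hp in
/-- `[L:K] = p`. -/
theorem cp_finrank_over_left (h : CrossData (F := F) (L := L) p K M) : finrank K L = p := by
  have hgalM : IsGalois F M := cp_isGalois_sub M
  rw [← IsGalois.card_fixingSubgroup_eq_finrank K]
  -- restriction to `M` is injective on the fixing subgroup of `K`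
  let f : K.fixingSubgroup →* (M ≃ₐ[F] M) :=
    (AlgEquiv.restrictNormalHom M).comp K.fixingSubgroup.subtype
  have hf : Function.Injective f := by
    rw [injective_iff_map_eq_one]
    intro σ hσ
    have h2 : (σ : L ≃ₐ[F] L) ∈ M.fixingSubgroup := by
      rw [← M.restrictNormalHom_ker, MonoidHom.mem_ker]; exact hσ
    have h3 : (σ : L ≃ₐ[F] L) ∈ (K ⊔ M).fixingSubgroup := by
      rw [IntermediateField.fixingSubgroup_sup]; exact ⟨σ.2, h2⟩
    rw [h.sup_eq_top, IntermediateField.fixingSubgroup_top, Subgroup.mem_bot] at h3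
    exact Subtype.ext h3
  have hdvd : Nat.card K.fixingSubgroup ∣ p := by
    rw [← cp_card_gal_left h.finrank_right]
    exact Subgroup.card_dvd_of_injective f hf
  rcases (Nat.dvd_prime hp.out).mp hdvd with h1 | h1
  · exfalso
    have hKtop : K = ⊤ := by
      rw [IsGalois.card_fixingSubgroup_eq_finrank K] at h1
      exact IntermediateField.finrank_eq_one_iff_eq_top.mp h1
    have hMK : M ≤ K := by rw [hKtop]; exact le_top
    exact h.ne (IntermediateField.eq_of_le_of_finrank_eq hMK
      (by rw [h.finrank_left, h.finrank_right])).symm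
  · exact h1

include hp in
theorem cp_finrank_top (h : CrossData (F := F) (L := L) p K M) : finrank F L = p ^ 2 := by
  rw [← finrank_mul_finrank F K L, h.finrank_left, cp_finrank_over_left h, sq]

omit [Normal F K] [Normal F M] in
theorem CrossData.symm (h : CrossData (F := F) (L := L) p K M) :
    CrossData (F := F) (L := L) p M K :=
  ⟨h.finrank_right, h.finrank_left, h.ne.symm, by rw [sup_comm]; exact h.sup_eq_top⟩

include hp in
/-- `Gal(L/F)` is commutative. -/
theorem cp_mul_comm (h : CrossData (F := F) (L := L) p K M) (σ τ : L ≃ₐ[F] L) :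
    σ * τ = τ * σ := by
  have hgalK : IsGalois F K := cp_isGalois_sub K
  have hgalM : IsGalois F M := cp_isGalois_sub M
  apply cp_restrict_injective h
  · rw [map_mul, map_mul]
    exact cp_mul_comm_of_card_prime (cp_card_gal_left h.finrank_left) _ _
  · rw [map_mul, map_mul]
    exact cp_mul_comm_of_card_prime (cp_card_gal_left h.finrank_right) _ _

section phi

variable (h : CrossData (F := F) (L := L) p K M) (φ : L ≃ₐ[F] L)

/-- The fixed field of the cyclic group generated by `φ`. -/
abbrev cpFix (φ : L ≃ₐ[F] L) : IntermediateField F L :=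
  IntermediateField.fixedField (Subgroup.zpowers φ)

include hp h in
theorem cp_pow_eq_one : φ ^ p = 1 := by
  have hgalK : IsGalois F K := cp_isGalois_sub K
  have hgalM : IsGalois F M := cp_isGalois_sub M
  apply cp_restrict_injective h
  · rw [map_pow, map_one]
    exact cp_pow_eq_one_of_card_prime (cp_card_gal_left h.finrank_left) _
  · rw [map_pow, map_one]
    exact cp_pow_eq_one_of_card_prime (cp_card_gal_left h.finrank_right) _

include hp h in
theorem cp_orderOf (hφ : φ ≠ 1) : orderOf φ = p :=
  orderOf_eq_prime (cp_pow_eq_one h φ) hφ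

include hp h in
theorem cp_card_zpowers (hφ : φ ≠ 1) : Nat.card (Subgroup.zpowers φ) = p := by
  rw [Nat.card_zpowers, cp_orderOf h φ hφ]

include hp h in
theorem cp_finrank_over_fix (hφ : φ ≠ 1) : finrank (cpFix φ) L = p := by
  rw [IntermediateField.finrank_fixedField_eq_card, cp_card_zpowers h φ hφ]

include hp h in
theorem cp_finrank_fix (hφ : φ ≠ 1) : finrank F (cpFix φ) = p := by
  have h1 := finrank_mul_finrank F (cpFix φ) L
  rw [cp_finrank_over_fix h φ hφ, cp_finrank_top h, sq] at h1
  exact Nat.eq_of_mul_eq_mul_right hp.out.pos h1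

include hp h in
theorem cp_normal_fix : Normal F (cpFix φ) := by
  have : (Subgroup.zpowers φ).Normal :=
    ⟨fun n hn g => by
      have : g * n * g⁻¹ = n := by rw [cp_mul_comm h g n, mul_assoc, mul_inv_cancel, mul_one]
      rw [this]; exact hn⟩
  exact (IsGalois.of_fixedField_normal_subgroup (Subgroup.zpowers φ)).to_normal

omit [Normal F K] [Normal F M] in
theorem cp_fixingSubgroup_fix : (cpFix φ).fixingSubgroup = Subgroup.zpowers φ :=
  IntermediateField.fixingSubgroup_fixedField _

omit [Normal F M] in
theorem cp_fix_ne (hφK : AlgEquiv.restrictNormalHom K φ ≠ 1) : K ≠ cpFix φ := by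
  intro hEK
  apply hφK
  have h1 : φ ∈ (cpFix φ).fixingSubgroup := by
    rw [cp_fixingSubgroup_fix]; exact Subgroup.mem_zpowers φ
  rw [← hEK, ← K.restrictNormalHom_ker, MonoidHom.mem_ker] at h1
  exact h1

omit [IsGalois F L] [Normal F K] [Normal F M] in
include hp in
/-- Two distinct subfields of degree `p` in a field of degree `p²` generate it. -/
theorem cp_sup_eq_top_of_ne {K E : IntermediateField F L} (hL : finrank F L = p ^ 2)
    (hK : finrank F K = p) (hE : finrank F E = p) (hne : K ≠ E) : K ⊔ E = ⊤ := by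
  have h1 : finrank F K ∣ finrank F ↥(K ⊔ E) :=
    IntermediateField.finrank_dvd_of_le_right (le_sup_left : K ≤ K ⊔ E)
  have h2 : finrank F ↥(K ⊔ E) ∣ finrank F L := by
    rw [← IntermediateField.finrank_top' (F := F) (E := L)]
    exact IntermediateField.finrank_dvd_of_le_right le_top
  rw [hL] at h2
  obtain ⟨k, hk, hk'⟩ := (Nat.dvd_prime_pow hp.out).mp h2
  have hk1 : k = 1 ∨ k = 2 := by
    rcases Nat.lt_or_ge k 1 with h0 | h0
    · exfalso
      have : k = 0 := by omega
      rw [this, pow_zero] at hk'
      rw [hk', hK] at h1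
      exact hp.out.one_lt.ne' (Nat.dvd_one.mp h1)
    · omega
  rcases hk1 with rfl | rfl
  · exfalso
    rw [pow_one] at hk'
    have e1 : K = K ⊔ E :=
      IntermediateField.eq_of_le_of_finrank_eq le_sup_left (by rw [hk', hK])
    have hEK : E ≤ K := by rw [e1]; exact le_sup_right
    exact hne (IntermediateField.eq_of_le_of_finrank_eq hEK (by rw [hE, hK])).symm
  · apply IntermediateField.eq_of_le_of_finrank_eq le_top
    rw [hk', IntermediateField.finrank_top', hL]

include hp h in
/-- `K` and the fixed field of `φ` again form a crossing configuration. -/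
theorem cp_crossData_left (hφK : AlgEquiv.restrictNormalHom K φ ≠ 1) :
    CrossData (F := F) (L := L) p K (cpFix φ) := by
  have hφ : φ ≠ 1 := by
    rintro rfl; exact hφK (map_one _)
  have hne := cp_fix_ne φ hφK
  exact ⟨h.finrank_left, cp_finrank_fix h φ hφ, hne,
    cp_sup_eq_top_of_ne (cp_finrank_top h) h.finrank_left (cp_finrank_fix h φ hφ) hne⟩

include hp h in
theorem cp_crossData_right (hφM : AlgEquiv.restrictNormalHom M φ ≠ 1) :
    CrossData (F := F) (L := L) p (cpFix φ) M :=
  (cp_crossData_left h.symm φ hφM).symm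

include hp h in
/-- Restriction `⟨φ⟩ → Gal(K/F)` is bijective. -/
theorem cp_restrict_zpowers_bijective (hφK : AlgEquiv.restrictNormalHom K φ ≠ 1) :
    Function.Bijective
      ((AlgEquiv.restrictNormalHom K).comp (Subgroup.zpowers φ).subtype) := by
  have hgalK : IsGalois F K := cp_isGalois_sub K
  have hφ : φ ≠ 1 := by
    rintro rfl; exact hφK (map_one _)
  have hc := cp_crossData_left h φ hφK
  rw [Nat.bijective_iff_injective_and_card]
  refine ⟨?_, ?_⟩
  · rw [injective_iff_map_eq_one]
    intro σ hσ
    have h1 : (σ : L ≃ₐ[F] L) ∈ K.fixingSubgroup := by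
      rw [← K.restrictNormalHom_ker, MonoidHom.mem_ker]; exact hσ
    have h2 : (σ : L ≃ₐ[F] L) ∈ (cpFix φ).fixingSubgroup := by
      rw [cp_fixingSubgroup_fix]; exact σ.2
    have h3 : (σ : L ≃ₐ[F] L) ∈ (K ⊔ cpFix φ).fixingSubgroup := by
      rw [IntermediateField.fixingSubgroup_sup]; exact ⟨h1, h2⟩
    rw [hc.sup_eq_top, IntermediateField.fixingSubgroup_top, Subgroup.mem_bot] at h3
    exact Subtype.ext h3
  · rw [cp_card_zpowers h φ hφ, cp_card_gal_left h.finrank_left]

include hp h in
/-- Every element of `Gal(K/F)` is the restriction of a unique power `φ ^ k`, `k < p`. -/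
theorem cp_exists_pow_restrict (hφK : AlgEquiv.restrictNormalHom K φ ≠ 1) (τ : K ≃ₐ[F] K) :
    ∃ k : ℕ, k < p ∧ AlgEquiv.restrictNormalHom K (φ ^ k) = τ := by
  have hφ : φ ≠ 1 := by
    rintro rfl; exact hφK (map_one _)
  obtain ⟨⟨σ, hσ⟩, hστ⟩ := (cp_restrict_zpowers_bijective h φ hφK).2 τ
  obtain ⟨k, rfl⟩ := (Subgroup.mem_zpowers_iff).mp hσ
  refine ⟨(k % (p : ℤ)).toNat, ?_, ?_⟩
  · have hp0 : (0 : ℤ) < p := by exact_mod_cast hp.out.pos
    have := Int.emod_lt_of_pos k hp0
    have h0 := Int.emod_nonneg k hp0.ne'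
    omega
  · rw [← hστ]
    change _ = AlgEquiv.restrictNormalHom K (φ ^ k)
    congr 1
    have hp0 : (0 : ℤ) < p := by exact_mod_cast hp.out.pos
    have h0 := Int.emod_nonneg k hp0.ne'
    rw [← zpow_natCast, Int.toNat_of_nonneg h0, ← cp_orderOf h φ hφ, zpow_mod_orderOf]

include hp h in
/-- An element of `Gal(L/E)`, `E = cpFix φ`, is determined by its restriction to `K`. -/
theorem cp_eq_one_of_restrict_eq_one (hφK : AlgEquiv.restrictNormalHom K φ ≠ 1)
    (σ : L ≃ₐ[cpFix φ] L)
    (hσ : AlgEquiv.restrictNormalHom K (σ.restrictScalars F) = 1) : σ = 1 := by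
  have hc := cp_crossData_left h φ hφK
  have h1 : σ.restrictScalars F ∈ K.fixingSubgroup := by
    rw [← K.restrictNormalHom_ker, MonoidHom.mem_ker]; exact hσ
  have h2 : σ.restrictScalars F ∈ (cpFix φ).fixingSubgroup := by
    rw [IntermediateField.mem_fixingSubgroup_iff]
    intro x hx
    exact σ.commutes ⟨x, hx⟩
  have h3 : σ.restrictScalars F ∈ (K ⊔ cpFix φ).fixingSubgroup := by
    rw [IntermediateField.fixingSubgroup_sup]; exact ⟨h1, h2⟩
  rw [hc.sup_eq_top, IntermediateField.fixingSubgroup_top, Subgroup.mem_bot] at h3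
  ext x
  have := congrArg (fun τ : L ≃ₐ[F] L => τ x) h3
  simpa using this

end phi

end compositum

end Fermat.Agent.S14
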